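/-
TW-FLAT (task 255): the flat local condition at `p` — DEFINITIONS ONLY.

`P` is a valuation subring of `Qb = AlgebraicClosure ℚ` over `p`, `D ⊇ I` its decomposition and
inertia groups, `I' = inertiaCyc P p` the elements of `I` fixing the `p`-th roots of unity.

* `HasLine rb P` : `rb|D` has a stable line (the reducible case (O)); its negation is case (SS).
* `OrdShape rb P v0` : `k·v0` is a `D`-stable line and `I` acts trivially on `k²/k·v0`.
* `PeuRam rb P p` : `rb|I'` is peu ramifié: every additive character of the matrix `rb σ − 1`,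
  `σ ∈ I'`, is the Kummer character of a `p`-th root `z` which is a UNIT of `P`.
* `IsFlOrd P p v0 c'` : the ordinary flat condition on a cocycle `c'` of `D`: upper triangular for
  the line `k·v0`, image in `k·v0` on inertia, and peu ramifié on `I'` (unit Kummer witnesses).
* `LOrd rb P p v0` : cocycles which are `IsFlOrd` up to a coboundary.
* `LSS rb P p` : the supersingular condition: for every `ϖ` with `ϖ^(p²−1) = −p` and every
  additive character `ψ` of `Mat2 k`, the character `σ ↦ ψ (c σ)` of `{σ ∈ I | σ ϖ = ϖ}` is the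
  Kummer character of a `p`-th root `z` with `z^p ≡ 1 mod ϖ^(p²−2)` ("Kummer level ≥ p²−2").
* `Lfl rb p` : the local family, by cases.
* `FlatLift rb p c` : the hypothesis of the containment (a flat first-order lift with cocycle `c`),
  `FlatOrder rb P c` : its order form (a `P`-order with `GQ`-equivariant basis on `k[ε]²`).
* the four named statements `OrdContain`, `OrdCount`, `SSContain`, `SSCount` and the bridge
  `FlatBridge`; `TW/Flat/Main.lean` deduces `exists_locFamily_fl` from them.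
-/
import Mathlib
import Fermat.Agent.TW.Selmer
import Fermat.Agent.TW.Hyp
import Fermat.Agent.TW.Basic
import Fermat.Agent.Lib.FinFlat.POrder

set_option autoImplicit false

namespace Fermat.Agent.TW.Flat

open Fermat.Agent.S53 Fermat.Agent.TW Fermat.Agent.Lib.FinFlat

local notation "Qb" => AlgebraicClosure ℚ

noncomputable section

variable {k : Type} [Field k]

/-- `rb` restricted to the decomposition group of `P` has a stable line. -/
def HasLine (rb : GQ →* Mat2 k) (P : ValuationSubring Qb) : Prop :=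
  ∃ v : Fin 2 → k, v ≠ 0 ∧
    ∀ σ ∈ P.decompositionSubgroup ℚ, ∃ a : k, (rb σ).mulVec v = a • v

/-- The ordinary shape: `k·v0` is stable under the decomposition group and inertia acts trivially
on the quotient `k² / k·v0`. -/
def OrdShape (rb : GQ →* Mat2 k) (P : ValuationSubring Qb) (v0 : Fin 2 → k) : Prop :=
  v0 ≠ 0 ∧ (∀ σ ∈ P.decompositionSubgroup ℚ, ∃ a : k, (rb σ).mulVec v0 = a • v0) ∧
    ∀ σ ∈ P.inertiaSubgroupIn ℚ, ∀ w : Fin 2 → k, ∃ a : k, (rb σ).mulVec w - w = a • v0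

/-- The elements of the inertia group fixing the `p`-th roots of unity. -/
def inertiaCyc (P : ValuationSubring Qb) (p : ℕ) : Subgroup GQ where
  carrier := {σ | σ ∈ P.inertiaSubgroupIn ℚ ∧ ∀ ζ : Qb, ζ ^ p = 1 → σ ζ = ζ}
  mul_mem' := by
    rintro σ τ ⟨hσ, hσ'⟩ ⟨hτ, hτ'⟩
    refine ⟨mul_mem hσ hτ, fun ζ hζ => ?_⟩
    rw [AlgEquiv.mul_apply, hτ' ζ hζ, hσ' ζ hζ]
  one_mem' := ⟨one_mem _, fun _ _ => rfl⟩
  inv_mem' := by
    rintro σ ⟨hσ, hσ'⟩
    refine ⟨inv_mem hσ, fun ζ hζ => ?_⟩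
    have h := hσ' ζ hζ
    calc σ⁻¹ ζ = σ⁻¹ (σ ζ) := by rw [h]
      _ = ζ := by rw [← AlgEquiv.mul_apply, inv_mul_cancel, AlgEquiv.one_apply]

theorem mem_inertiaCyc (P : ValuationSubring Qb) (p : ℕ) (σ : GQ) :
    σ ∈ inertiaCyc P p ↔ σ ∈ P.inertiaSubgroupIn ℚ ∧ ∀ ζ : Qb, ζ ^ p = 1 → σ ζ = ζ := Iff.rfl

/-- `z` is a unit of the valuation ring `P`. -/
def IsPUnit (P : ValuationSubring Qb) (z : Qb) : Prop := z ≠ 0 ∧ z ∈ P ∧ z⁻¹ ∈ P

theorem isPUnit_one (P : ValuationSubring Qb) : IsPUnit P 1 :=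
  ⟨one_ne_zero, P.one_mem, by rw [inv_one]; exact P.one_mem⟩

theorem IsPUnit.mul {P : ValuationSubring Qb} {z w : Qb} (hz : IsPUnit P z) (hw : IsPUnit P w) :
    IsPUnit P (z * w) :=
  ⟨mul_ne_zero hz.1 hw.1, P.mul_mem _ _ hz.2.1 hw.2.1, by
    rw [mul_inv]; exact P.mul_mem _ _ hz.2.2 hw.2.2⟩

/-- `rb|I'` is peu ramifié (unit Kummer witnesses for every additive character of `rb σ − 1`). -/
def PeuRam (rb : GQ →* Mat2 k) (P : ValuationSubring Qb) (p : ℕ) : Prop :=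
  ∀ ψ : AddChar (Mat2 k) Qb, ∃ z : Qb, IsPUnit P z ∧
    ∀ σ ∈ inertiaCyc P p, σ z = ψ (rb σ - 1) * z

/-- The ordinary flat condition on a function `c'` on the decomposition group. -/
def IsFlOrd (P : ValuationSubring Qb) (p : ℕ) (v0 : Fin 2 → k)
    (c' : ↥(P.decompositionSubgroup ℚ) → Mat2 k) : Prop :=
  (∀ σ : ↥(P.decompositionSubgroup ℚ), ∃ a : k, (c' σ).mulVec v0 = a • v0) ∧
  (∀ σ : ↥(P.decompositionSubgroup ℚ), (σ : GQ) ∈ P.inertiaSubgroupIn ℚ →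
    ∀ w : Fin 2 → k, ∃ a : k, (c' σ).mulVec w = a • v0) ∧
  ∀ ψ : AddChar (Mat2 k) Qb, ∃ z : Qb, IsPUnit P z ∧
    ∀ σ : ↥(P.decompositionSubgroup ℚ), (σ : GQ) ∈ inertiaCyc P p → (σ : GQ) z = ψ (c' σ) * z

theorem isFlOrd_zero (P : ValuationSubring Qb) (p : ℕ) (v0 : Fin 2 → k) :
    IsFlOrd P p v0 (0 : ↥(P.decompositionSubgroup ℚ) → Mat2 k) := by
  refine ⟨fun σ => ⟨0, by simp⟩, fun σ _ w => ⟨0, by simp⟩, fun ψ => ⟨1, isPUnit_one P, ?_⟩⟩
  intro σ _
  simp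

theorem IsFlOrd.add {P : ValuationSubring Qb} {p : ℕ} {v0 : Fin 2 → k}
    {c₁ c₂ : ↥(P.decompositionSubgroup ℚ) → Mat2 k} (h₁ : IsFlOrd P p v0 c₁)
    (h₂ : IsFlOrd P p v0 c₂) : IsFlOrd P p v0 (c₁ + c₂) := by
  refine ⟨fun σ => ?_, fun σ hσ w => ?_, fun ψ => ?_⟩
  · obtain ⟨a, ha⟩ := h₁.1 σ
    obtain ⟨b, hb⟩ := h₂.1 σ
    exact ⟨a + b, by rw [Pi.add_apply, Matrix.add_mulVec, ha, hb, add_smul]⟩
  · obtain ⟨a, ha⟩ := h₁.2.1 σ hσ w
    obtain ⟨b, hb⟩ := h₂.2.1 σ hσ w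
    exact ⟨a + b, by rw [Pi.add_apply, Matrix.add_mulVec, ha, hb, add_smul]⟩
  · obtain ⟨z, hz, hz'⟩ := h₁.2.2 ψ
    obtain ⟨w, hw, hw'⟩ := h₂.2.2 ψ
    refine ⟨z * w, hz.mul hw, fun σ hσ => ?_⟩
    rw [map_mul, hz' σ hσ, hw' σ hσ, Pi.add_apply, AddChar.map_add_eq_mul]
    ring

/-- Precomposition of an additive character with a scalar multiplication. -/
def smulChar (a : k) (ψ : AddChar (Mat2 k) Qb) : AddChar (Mat2 k) Qb where
  toFun X := ψ (a • X)
  map_zero_eq_one' := by rw [smul_zero, AddChar.map_zero_eq_one]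
  map_add_eq_mul' X Y := by rw [smul_add, AddChar.map_add_eq_mul]

theorem smulChar_apply (a : k) (ψ : AddChar (Mat2 k) Qb) (X : Mat2 k) :
    smulChar a ψ X = ψ (a • X) := rfl

theorem IsFlOrd.smul {P : ValuationSubring Qb} {p : ℕ} {v0 : Fin 2 → k}
    {c₁ : ↥(P.decompositionSubgroup ℚ) → Mat2 k} (a : k) (h₁ : IsFlOrd P p v0 c₁) :
    IsFlOrd P p v0 (a • c₁) := by
  refine ⟨fun σ => ?_, fun σ hσ w => ?_, fun ψ => ?_⟩
  · obtain ⟨b, hb⟩ := h₁.1 σ
    exact ⟨a * b, by rw [Pi.smul_apply, Matrix.smul_mulVec, hb, smul_smul]⟩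
  · obtain ⟨b, hb⟩ := h₁.2.1 σ hσ w
    exact ⟨a * b, by rw [Pi.smul_apply, Matrix.smul_mulVec, hb, smul_smul]⟩
  · obtain ⟨z, hz, hz'⟩ := h₁.2.2 (smulChar a ψ)
    exact ⟨z, hz, fun σ hσ => by rw [hz' σ hσ, smulChar_apply, Pi.smul_apply]⟩

/-- The ordinary local condition: cocycles which are `IsFlOrd` after subtracting a coboundary. -/
def LOrd (rb : GQ →* Mat2 k) (P : ValuationSubring Qb) (p : ℕ) (v0 : Fin 2 → k) :
    Submodule k (↥(P.decompositionSubgroup ℚ) → Mat2 k) where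
  carrier := {c | c ∈ Z1On (P.decompositionSubgroup ℚ) rb 1 ∧ ∃ X : Mat2 k, X.trace = 0 ∧
    IsFlOrd P p v0 (c - resOn (P.decompositionSubgroup ℚ) (cob rb 1 X))}
  add_mem' := by
    rintro c c' ⟨h1, X, hX, h2⟩ ⟨h1', X', hX', h2'⟩
    refine ⟨add_mem h1 h1', X + X', by rw [Matrix.trace_add, hX, hX', add_zero], ?_⟩
    have h := h2.add h2'
    have e : c + c' - resOn (P.decompositionSubgroup ℚ) (cob rb 1 (X + X')) =
        (c - resOn (P.decompositionSubgroup ℚ) (cob rb 1 X)) +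
          (c' - resOn (P.decompositionSubgroup ℚ) (cob rb 1 X')) := by
      rw [map_add, map_add]; abel
    rw [e]
    exact h
  zero_mem' := by
    refine ⟨zero_mem _, 0, Matrix.trace_zero _ _, ?_⟩
    rw [map_zero, map_zero, sub_zero]
    exact isFlOrd_zero P p v0
  smul_mem' := by
    rintro a c ⟨h1, X, hX, h2⟩
    refine ⟨Submodule.smul_mem _ a h1, a • X, by rw [Matrix.trace_smul, hX, smul_zero], ?_⟩
    have h := h2.smul a
    have e : a • c - resOn (P.decompositionSubgroup ℚ) (cob rb 1 (a • X)) =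
        a • (c - resOn (P.decompositionSubgroup ℚ) (cob rb 1 X)) := by
      rw [map_smul, map_smul, smul_sub]
    rw [e]
    exact h

theorem mem_LOrd (rb : GQ →* Mat2 k) (P : ValuationSubring Qb) (p : ℕ) (v0 : Fin 2 → k)
    (c : ↥(P.decompositionSubgroup ℚ) → Mat2 k) :
    c ∈ LOrd rb P p v0 ↔ c ∈ Z1On (P.decompositionSubgroup ℚ) rb 1 ∧ ∃ X : Mat2 k, X.trace = 0 ∧
      IsFlOrd P p v0 (c - resOn (P.decompositionSubgroup ℚ) (cob rb 1 X)) := Iff.rfl

/-- The Kummer-level condition of the supersingular case for one uniformiser `ϖ` and one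
character `ψ`: a `p`-th root `z ≠ 0` with `z^p ∈ P`, `z^p ≡ 1 mod ϖ^(p²−2)`, whose Kummer
character on `{σ ∈ I | σ ϖ = ϖ}` is `σ ↦ ψ (c σ)`. -/
def SSWitness (P : ValuationSubring Qb) (p : ℕ) (ϖ : Qb)
    (c : ↥(P.decompositionSubgroup ℚ) → Mat2 k) (ψ : AddChar (Mat2 k) Qb) (z : Qb) : Prop :=
  z ≠ 0 ∧ z ^ p ∈ P ∧ (z ^ p - 1) / ϖ ^ (p ^ 2 - 2) ∈ P ∧
    ∀ σ : ↥(P.decompositionSubgroup ℚ), (σ : GQ) ∈ P.inertiaSubgroupIn ℚ → (σ : GQ) ϖ = ϖ →
      (σ : GQ) z = ψ (c σ) * z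

/-- The supersingular condition on a function on the decomposition group ("Kummer level
`≥ p² − 2` over `Qb^I(ϖ)`, `ϖ^(p²−1) = −p`"). -/
def IsFlSS (P : ValuationSubring Qb) (p : ℕ) (c : ↥(P.decompositionSubgroup ℚ) → Mat2 k) : Prop :=
  ∀ ϖ : Qb, ϖ ^ (p ^ 2 - 1) = -(p : Qb) → ∀ ψ : AddChar (Mat2 k) Qb, ∃ z : Qb, SSWitness P p ϖ c ψ z

theorem isFlSS_zero (P : ValuationSubring Qb) (p : ℕ) :
    IsFlSS P p (0 : ↥(P.decompositionSubgroup ℚ) → Mat2 k) := by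
  intro ϖ _ ψ
  refine ⟨1, one_ne_zero, by rw [one_pow]; exact P.one_mem, ?_, fun σ _ _ => ?_⟩
  · rw [one_pow, sub_self, zero_div]; exact P.zero_mem
  · simp

theorem IsFlSS.add {P : ValuationSubring Qb} {p : ℕ}
    {c₁ c₂ : ↥(P.decompositionSubgroup ℚ) → Mat2 k} (h₁ : IsFlSS P p c₁) (h₂ : IsFlSS P p c₂) :
    IsFlSS P p (c₁ + c₂) := by
  intro ϖ hϖ ψ
  obtain ⟨z, hz0, hzP, hz1, hz2⟩ := h₁ ϖ hϖ ψ
  obtain ⟨w, hw0, hwP, hw1, hw2⟩ := h₂ ϖ hϖ ψ
  refine ⟨z * w, mul_ne_zero hz0 hw0, by rw [mul_pow]; exact P.mul_mem _ _ hzP hwP, ?_,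
    fun σ hσ hσϖ => ?_⟩
  · have e : ((z * w) ^ p - 1) / ϖ ^ (p ^ 2 - 2) =
        (z ^ p - 1) / ϖ ^ (p ^ 2 - 2) * w ^ p + (w ^ p - 1) / ϖ ^ (p ^ 2 - 2) := by
      rw [mul_pow]; ring
    rw [e]
    exact P.add_mem _ _ (P.mul_mem _ _ hz1 hwP) hw1
  · rw [map_mul, hz2 σ hσ hσϖ, hw2 σ hσ hσϖ, Pi.add_apply, AddChar.map_add_eq_mul]
    ring

theorem IsFlSS.smul {P : ValuationSubring Qb} {p : ℕ}
    {c₁ : ↥(P.decompositionSubgroup ℚ) → Mat2 k} (a : k) (h₁ : IsFlSS P p c₁) :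
    IsFlSS P p (a • c₁) := by
  intro ϖ hϖ ψ
  obtain ⟨z, hz0, hzP, hz1, hz2⟩ := h₁ ϖ hϖ (smulChar a ψ)
  exact ⟨z, hz0, hzP, hz1, fun σ hσ hσϖ => by
    rw [hz2 σ hσ hσϖ, smulChar_apply, Pi.smul_apply]⟩

/-- The supersingular local condition. -/
def LSS (rb : GQ →* Mat2 k) (P : ValuationSubring Qb) (p : ℕ) :
    Submodule k (↥(P.decompositionSubgroup ℚ) → Mat2 k) where
  carrier := {c | c ∈ Z1On (P.decompositionSubgroup ℚ) rb 1 ∧ IsFlSS P p c}
  add_mem' := by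
    rintro c c' ⟨h1, h2⟩ ⟨h1', h2'⟩
    exact ⟨add_mem h1 h1', h2.add h2'⟩
  zero_mem' := ⟨zero_mem _, isFlSS_zero P p⟩
  smul_mem' := by
    rintro a c ⟨h1, h2⟩
    exact ⟨Submodule.smul_mem _ a h1, h2.smul a⟩

theorem mem_LSS (rb : GQ →* Mat2 k) (P : ValuationSubring Qb) (p : ℕ)
    (c : ↥(P.decompositionSubgroup ℚ) → Mat2 k) :
    c ∈ LSS rb P p ↔ c ∈ Z1On (P.decompositionSubgroup ℚ) rb 1 ∧ IsFlSS P p c := Iff.rfl

open Classical in
/-- THE FLAT LOCAL FAMILY.  Reducible case: the ordinary condition if `rb|D` has the ordinary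
shape and is peu ramifié on `I'`, coboundaries otherwise.  Irreducible case: the supersingular
condition (plus coboundaries). -/
def Lfl (rb : GQ →* Mat2 k) (p : ℕ) : LocFamily k := fun P =>
  if HasLine rb P then
    (if h : ∃ v0 : Fin 2 → k, OrdShape rb P v0 ∧ PeuRam rb P p then LOrd rb P p h.choose
      else B1On (P.decompositionSubgroup ℚ) rb 1)
  else LSS rb P p ⊔ B1On (P.decompositionSubgroup ℚ) rb 1

/-- A flat first-order lift with cyclotomic determinant and cocycle `c` (the hypothesis of the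
containment in `exists_locFamily_fl`). -/
def FlatLift (rb : GQ →* Mat2 k) (p : ℕ) (c : GQ → Mat2 k) : Prop :=
  ∃ (r : GQ →* Mat2 (DualNumber k)) (hr : MatCont r), (∀ σ, r σ = liftMat rb c σ) ∧
    (repOfMat r hr).DetIsCyclotomic p ∧ (repOfMat r hr).IsFlatAt p

/-- The action of `GQ` on `k[ε]²` through the lift attached to `c`. -/
def liftAct (rb : GQ →* Mat2 k) (c : GQ → Mat2 k) (σ : GQ) (v : Fin 2 → DualNumber k) :
    Fin 2 → DualNumber k := (liftMat rb c σ).mulVec v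

/-- Order form of flatness: a `P`-order with a `GQ`-equivariant basis on `k[ε]²` with the action
of the lift attached to `c`. -/
def FlatOrder (rb : GQ →* Mat2 k) (P : ValuationSubring Qb) (c : GQ → Mat2 k) : Prop :=
  ∃ B : Subalgebra P ((Fin 2 → DualNumber k) → Qb), IsPOrder P ⊤ (liftAct rb c) B

/-! ### The named statements (each is a task; `Main.lean` assembles them) -/

/-- FLAT-BR: from the Prelude's flat datum to an order. -/
def FlatBridge (k : Type) [Field k] : Prop :=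
  ∀ (rb : GQ →* Mat2 k) (p : ℕ) [Fact p.Prime] (P : ValuationSubring Qb), P.LiesOverPrime p →
    ∀ c : GQ → Mat2 k, FlatLift rb p c → FlatOrder rb P c

/-- FLAT-ORD-CONTAIN: in the reducible case a flat lift forces the ordinary shape, peu ramifié
`rb`, and its cocycle is ordinary flat up to a coboundary. -/
def OrdContain (k : Type) [Field k] : Prop :=
  ∀ (rb : GQ →* Mat2 k) (p : ℕ) [Fact p.Prime], p ≠ 2 → ResidualHyp rb p →
    ∀ P : ValuationSubring Qb, P.LiesOverPrime p → HasLine rb P →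
    ∀ c : GQ → Mat2 k, c ∈ Z1 rb 1 → FlatOrder rb P c →
      ∃ v0 : Fin 2 → k, OrdShape rb P v0 ∧ PeuRam rb P p ∧
        resOn (P.decompositionSubgroup ℚ) c ∈ LOrd rb P p v0

/-- FLAT-ORD-UNIQUE: the line of the ordinary shape is unique. -/
def OrdUnique (k : Type) [Field k] : Prop :=
  ∀ (rb : GQ →* Mat2 k) (p : ℕ) [Fact p.Prime], p ≠ 2 → ResidualHyp rb p →
    ∀ P : ValuationSubring Qb, P.LiesOverPrime p →
    ∀ v0 v1 : Fin 2 → k, OrdShape rb P v0 → OrdShape rb P v1 → ∃ a : k, a ≠ 0 ∧ v1 = a • v0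

/-- FLAT-ORD-COUNT: the ordinary condition has dimension `≤ h⁰ + 1` modulo coboundaries. -/
def OrdCount (k : Type) [Field k] : Prop :=
  ∀ (rb : GQ →* Mat2 k) (p : ℕ) [Fact p.Prime], p ≠ 2 → ResidualHyp rb p →
    ∀ P : ValuationSubring Qb, P.LiesOverPrime p →
    ∀ v0 : Fin 2 → k, OrdShape rb P v0 → PeuRam rb P p →
      Finite ↥(LOrd rb P p v0) ∧
      Nat.card ↥(LOrd rb P p v0) ≤ Nat.card ↥(H0On (P.decompositionSubgroup ℚ) rb 1) *
        Nat.card k ^ 1 * Nat.card ↥(B1On (P.decompositionSubgroup ℚ) rb 1)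

/-- FLAT-SS-CONTAIN: in the irreducible case the cocycle of a flat lift has Kummer level
`≥ p² − 2`. -/
def SSContain (k : Type) [Field k] : Prop :=
  ∀ (rb : GQ →* Mat2 k) (p : ℕ) [Fact p.Prime], p ≠ 2 → ResidualHyp rb p →
    ∀ P : ValuationSubring Qb, P.LiesOverPrime p → ¬ HasLine rb P →
    ∀ c : GQ → Mat2 k, c ∈ Z1 rb 1 → FlatOrder rb P c →
      IsFlSS P p (resOn (P.decompositionSubgroup ℚ) c)

/-- FLAT-SS-COUNT: in the irreducible case the supersingular condition has dimension `≤ 1`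
modulo coboundaries. -/
def SSCount (k : Type) [Field k] : Prop :=
  ∀ (rb : GQ →* Mat2 k) (p : ℕ) [Fact p.Prime], p ≠ 2 → ResidualHyp rb p →
    ∀ P : ValuationSubring Qb, P.LiesOverPrime p → ¬ HasLine rb P →
      Finite ↥(LSS rb P p ⊔ B1On (P.decompositionSubgroup ℚ) rb 1) ∧
      Nat.card ↥(LSS rb P p ⊔ B1On (P.decompositionSubgroup ℚ) rb 1) ≤
        Nat.card k * Nat.card ↥(B1On (P.decompositionSubgroup ℚ) rb 1)

end

end Fermat.Agent.TW.Flat
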