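/-
TW-FLAT (task 255): the LOCAL TOOLKIT as named statements (`Prop`-valued definitions, no proofs).
Producers prove `theorem … : Loc.X`; consumers take `(h : Loc.X)` as a hypothesis until the
producer has landed.  `P` is a valuation subring of `Qb` over `p`, `I = P.inertiaSubgroupIn ℚ`,
`D = P.decompositionSubgroup ℚ`; "`x ∈ P.nonunits`" means that `x` lies in the maximal ideal;
`IsPUnit P z` means that `z` is a unit of `P`.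
-/
import Mathlib
import Fermat.Agent.TW.Flat.Defs

set_option autoImplicit false

namespace Fermat.Agent.TW.Flat.Loc

open Fermat.Agent.S53 Fermat.Agent.TW Fermat.Agent.Lib.FinFlat Fermat.Agent.TW.Flat

local notation "Qb" => AlgebraicClosure ℚ

/-- [UNR] an element fixed by inertia is a power of `p` times a unit. -/
def Unr : Prop :=
  ∀ (p : ℕ) [Fact p.Prime] (P : ValuationSubring Qb), P.LiesOverPrime p → ∀ x : Qb, x ≠ 0 →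
    (∀ σ ∈ P.inertiaSubgroupIn ℚ, σ x = x) → ∃ n : ℤ, IsPUnit P (x / (p : Qb) ^ n)

/-- [TEICH] every unit is congruent to a root of unity of order prime to `p`. -/
def Teich : Prop :=
  ∀ (p : ℕ) [Fact p.Prime] (P : ValuationSubring Qb), P.LiesOverPrime p → ∀ x : Qb, IsPUnit P x →
    ∃ (ζ : Qb) (m : ℕ), 0 < m ∧ ¬ p ∣ m ∧ ζ ^ m = 1 ∧ x - ζ ∈ P.nonunits

/-- [ROOT-FIX] roots of unity of order prime to `p` are fixed by inertia. -/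
def RootFix : Prop :=
  ∀ (p : ℕ) [Fact p.Prime] (P : ValuationSubring Qb), P.LiesOverPrime p → ∀ (ζ : Qb) (m : ℕ),
    0 < m → ¬ p ∣ m → ζ ^ m = 1 → ∀ σ ∈ P.inertiaSubgroupIn ℚ, σ ζ = ζ

/-- [ROOT-INJ] roots of unity of order prime to `p` are distinct modulo the maximal ideal. -/
def RootInj : Prop :=
  ∀ (p : ℕ) [Fact p.Prime] (P : ValuationSubring Qb), P.LiesOverPrime p → ∀ (ζ ζ' : Qb) (m : ℕ),
    0 < m → ¬ p ∣ m → ζ ^ m = 1 → ζ' ^ m = 1 → ζ - ζ' ∈ P.nonunits → ζ = ζ'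

/-- [INERTIA-RES] inertia acts trivially on the residue field. -/
def InertiaRes : Prop :=
  ∀ (P : ValuationSubring Qb) (σ : GQ), σ ∈ P.inertiaSubgroupIn ℚ → ∀ x ∈ P,
    σ x - x ∈ P.nonunits

/-- [DECOMP-MEM] the decomposition group preserves `P`. -/
def DecompMem : Prop :=
  ∀ (P : ValuationSubring Qb) (σ : GQ), σ ∈ P.decompositionSubgroup ℚ → ∀ x : Qb,
    (σ x ∈ P ↔ x ∈ P)

/-- [ARCH] the valuation of `P` is archimedean: powers of a non-unit become divisible by any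
given nonzero element. -/
def Arch : Prop :=
  ∀ (p : ℕ) [Fact p.Prime] (P : ValuationSubring Qb), P.LiesOverPrime p → ∀ m ∈ P.nonunits,
    ∀ d : Qb, d ≠ 0 → ∃ n : ℕ, m ^ n / d ∈ P

/-- [CLOSE] `u ≡ 1 mod p·c` with `v(c) > 1/(p−1)`: exactly one `p`-th root of `u` is `≡ 1 mod c`,
and it is fixed by every element of the decomposition group fixing `u`. -/
def CloseRoot : Prop :=
  ∀ (p : ℕ) [Fact p.Prime] (P : ValuationSubring Qb), P.LiesOverPrime p → ∀ c u z : Qb, c ∈ P →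
    (∃ m ∈ P.nonunits, c ^ (p - 1) = p * m) → (∃ t ∈ P, u - 1 = p * c * t) → z ^ p = u →
    ∃ ζ : Qb, ζ ^ p = 1 ∧ (∃ t ∈ P, ζ * z - 1 = c * t) ∧
      ∀ σ ∈ P.decompositionSubgroup ℚ, σ u = u → σ (ζ * z) = ζ * z

/-- [ZETA] `(ζ − 1)^(p−1) = p · unit` for a primitive `p`-th root of unity. -/
def ZetaUnit : Prop :=
  ∀ (p : ℕ) [Fact p.Prime] (P : ValuationSubring Qb), P.LiesOverPrime p → ∀ ζ : Qb, ζ ^ p = 1 →
    ζ ≠ 1 → IsPUnit P ((ζ - 1) ^ (p - 1) / p)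

/-- [TAME-KUM] a level-constant homomorphism from inertia to a commutative group of exponent `e`
prime to `p` is trivial on the elements fixing an `e`-th root of `−p`. -/
def TameKum : Prop :=
  ∀ (p : ℕ) [Fact p.Prime] (P : ValuationSubring Qb), P.LiesOverPrime p → ∀ (e : ℕ), 0 < e →
    ¬ p ∣ e → ∀ ϖ : Qb, ϖ ^ e = -(p : Qb) → ∀ {M : Type} [CommGroup M]
    (f : ↥(P.inertiaSubgroupIn ℚ) →* M), (∀ σ, f σ ^ e = 1) →
    (∃ L : IntermediateField ℚ Qb, FiniteDimensional ℚ L ∧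
      ∀ σ : ↥(P.inertiaSubgroupIn ℚ), (∀ x ∈ L, (σ : GQ) x = x) → f σ = 1) →
    ∀ σ : ↥(P.inertiaSubgroupIn ℚ), (σ : GQ) ϖ = ϖ → f σ = 1

/-- [TAME-WILD] in a finite-level quotient of inertia, an element acting trivially on all ratios
`σ x / x` modulo the maximal ideal has `p`-power order. -/
def TameWild : Prop :=
  ∀ (p : ℕ) [Fact p.Prime] (P : ValuationSubring Qb), P.LiesOverPrime p → ∀ {G : Type} [Group G]
    [Finite G] (f : ↥(P.inertiaSubgroupIn ℚ) →* G),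
    (∃ L : IntermediateField ℚ Qb, FiniteDimensional ℚ L ∧
      ∀ σ : ↥(P.inertiaSubgroupIn ℚ), (∀ x ∈ L, (σ : GQ) x = x) → f σ = 1) →
    ∀ σ : ↥(P.inertiaSubgroupIn ℚ), (∀ x : Qb, x ≠ 0 → (σ : GQ) x / x - 1 ∈ P.nonunits) →
      ∃ n : ℕ, f σ ^ (p ^ n) = 1

/-- [SS-STRUCT] in the irreducible case `rb` is trivial on `G_F = {σ ∈ I | σ ϖ = ϖ}`,
`ϖ^(p²−1) = −p`. -/
def SSStruct (k : Type) [Field k] : Prop :=
  ∀ (rb : GQ →* Mat2 k) (p : ℕ) [Fact p.Prime], p ≠ 2 → ResidualHyp rb p →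
    ∀ P : ValuationSubring Qb, P.LiesOverPrime p → ¬ HasLine rb P →
    ∀ ϖ : Qb, ϖ ^ (p ^ 2 - 1) = -(p : Qb) → ∀ σ ∈ P.inertiaSubgroupIn ℚ, σ ϖ = ϖ → rb σ = 1

/-- [F-STRUCT] integral elements fixed by `G_F = {σ ∈ I | σ ϖ = ϖ}` (`ϖ^e = −p`, `p ∤ e`) are
combinations of `1, ϖ, …, ϖ^(e−1)` with integral inertia-fixed coefficients. -/
def FStruct : Prop :=
  ∀ (p : ℕ) [Fact p.Prime] (P : ValuationSubring Qb), P.LiesOverPrime p → ∀ (e : ℕ), 0 < e →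
    ¬ p ∣ e → ∀ ϖ : Qb, ϖ ^ e = -(p : Qb) → ∀ x ∈ P,
    (∀ σ ∈ P.inertiaSubgroupIn ℚ, σ ϖ = ϖ → σ x = x) →
    ∃ a : Fin e → Qb, (∀ i, a i ∈ P ∧ ∀ σ ∈ P.inertiaSubgroupIn ℚ, σ (a i) = a i) ∧
      x = ∑ i, a i * ϖ ^ (i : ℕ)

/-- [F-CONJ] all `e`-th roots of `−p` are conjugate under inertia (`X^e + p` is irreducible over
`Qb^I`): for every `e`-th root of unity `ξ` there is `τ ∈ I` with `τ ϖ = ξ ϖ`. -/
def FConj : Prop :=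
  ∀ (p : ℕ) [Fact p.Prime] (P : ValuationSubring Qb), P.LiesOverPrime p → ∀ (e : ℕ), 0 < e →
    ¬ p ∣ e → ∀ ϖ : Qb, ϖ ^ e = -(p : Qb) → ∀ ξ : Qb, ξ ^ e = 1 →
    ∃ τ ∈ P.inertiaSubgroupIn ℚ, τ ϖ = ξ * ϖ

/-- [F-INDEP] `1, ϖ, …, ϖ^(e−1)` are linearly independent over `Qb^I`. -/
def FIndep : Prop :=
  ∀ (p : ℕ) [Fact p.Prime] (P : ValuationSubring Qb), P.LiesOverPrime p → ∀ (e : ℕ), 0 < e →
    ¬ p ∣ e → ∀ ϖ : Qb, ϖ ^ e = -(p : Qb) → ∀ a : Fin e → Qb,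
    (∀ i, ∀ σ ∈ P.inertiaSubgroupIn ℚ, σ (a i) = a i) → ∑ i, a i * ϖ ^ (i : ℕ) = 0 → ∀ i, a i = 0

/-- [F-VAL] a nonzero element fixed by `G_F` is a power of `ϖ` times a unit. -/
def FVal : Prop :=
  ∀ (p : ℕ) [Fact p.Prime] (P : ValuationSubring Qb), P.LiesOverPrime p → ∀ (e : ℕ), 0 < e →
    ¬ p ∣ e → ∀ ϖ : Qb, ϖ ^ e = -(p : Qb) → ∀ x : Qb, x ≠ 0 →
    (∀ σ ∈ P.inertiaSubgroupIn ℚ, σ ϖ = ϖ → σ x = x) → ∃ m : ℤ, IsPUnit P (x / ϖ ^ m)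

/-- [MONO] monogenicity: `H ≤ G_F = {σ ∈ I | σ ϖ = ϖ}` open of index `n` (coset representatives
`τ i`); then there is a uniformiser `Π` of the fixed field of `H` (`Π^n = ϖ · unit`) such that the
integral `H`-fixed elements are exactly the `O_F`-combinations of `1, Π, …, Π^(n−1)`, and these
powers are linearly independent over `F = Qb^{G_F}`. -/
def Mono : Prop :=
  ∀ (p : ℕ) [Fact p.Prime] (P : ValuationSubring Qb), P.LiesOverPrime p → ∀ (e : ℕ), 0 < e →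
    ¬ p ∣ e → ∀ ϖ : Qb, ϖ ^ e = -(p : Qb) → ∀ H : Subgroup GQ,
    (∀ σ ∈ H, σ ∈ P.inertiaSubgroupIn ℚ ∧ σ ϖ = ϖ) →
    (∃ L : IntermediateField ℚ Qb, FiniteDimensional ℚ L ∧
      ∀ σ ∈ P.inertiaSubgroupIn ℚ, σ ϖ = ϖ → (∀ x ∈ L, σ x = x) → σ ∈ H) →
    ∀ n : ℕ, 0 < n →
    (∃ τ : Fin n → GQ, (∀ i, τ i ∈ P.inertiaSubgroupIn ℚ ∧ τ i ϖ = ϖ) ∧
      ∀ σ ∈ P.inertiaSubgroupIn ℚ, σ ϖ = ϖ → ∃! i, (τ i)⁻¹ * σ ∈ H) →
    ∃ Pi : Qb, Pi ∈ P ∧ (∀ σ ∈ H, σ Pi = Pi) ∧ (∃ u : Qb, IsPUnit P u ∧ Pi ^ n = ϖ * u) ∧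
      (∀ x ∈ P, (∀ σ ∈ H, σ x = x) →
        ∃ a : Fin n → Qb,
          (∀ i, a i ∈ P ∧ ∀ σ ∈ P.inertiaSubgroupIn ℚ, σ ϖ = ϖ → σ (a i) = a i) ∧
          x = ∑ i, a i * Pi ^ (i : ℕ)) ∧
      ∀ a : Fin n → Qb, (∀ i, ∀ σ ∈ P.inertiaSubgroupIn ℚ, σ ϖ = ϖ → σ (a i) = a i) →
        ∑ i, a i * Pi ^ (i : ℕ) = 0 → ∀ i, a i = 0

end Fermat.Agent.TW.Flat.Loc
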