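/-
TW-FLAT, row 321 (FLAT-ORD-CONTAIN): the three order-calculus inputs of `TW/Flat/Ord/Defs.lean`
as theorems.

* `inj0 : Inj0`       — (INJ-0), from `Lib/FinFlat/Mult.lean`;
* `multAvg : MultAvg` — (MULT), from `Lib/FinFlat/Mult.lean`;
* `ray k : Ray k`     — (RAY), Raynaud's bound for a line, from `Lib/FinFlat/Raynaud.lean`.
-/
import Fermat.Agent.TW.Flat.Ord.Defs
import Fermat.Agent.Lib.FinFlat.Raynaud

set_option autoImplicit false
set_option linter.unusedSectionVars false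
set_option linter.style.haveILetI false

namespace Fermat.Agent.TW.Flat.Ord

open Fermat.Agent.S53 Fermat.Agent.TW Fermat.Agent.Lib.FinFlat Fermat.Agent.TW.Flat

local notation "Qb" => AlgebraicClosure ℚ

/-- Every automorphism of `ℚ̄` raises the `p`-th roots of unity to a common power. -/
theorem exists_pow_of_rootsOfUnity {p : ℕ} (hp : p.Prime) (σ : GQ) :
    ∃ a : ℕ, ∀ μ : Qb, μ ^ p = 1 → σ μ = μ ^ a := by
  haveI : NeZero (p : Qb) := ⟨Nat.cast_ne_zero.mpr hp.ne_zero⟩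
  haveI : NeZero p := ⟨hp.ne_zero⟩
  obtain ⟨ζ, hζ⟩ := HasEnoughRootsOfUnity.exists_primitiveRoot Qb p
  obtain ⟨a, -, ha⟩ := hζ.eq_pow_of_pow_eq_one
    (by rw [← map_pow, hζ.pow_eq_one, map_one] : (σ ζ) ^ p = 1)
  refine ⟨a, fun μ hμ => ?_⟩
  obtain ⟨j, -, rfl⟩ := hζ.eq_pow_of_pow_eq_one hμ
  rw [map_pow, ← ha, ← pow_mul, ← pow_mul, mul_comm]

/-- (INJ-0). -/
theorem inj0 : Inj0 := by
  intro p _ hp2 P hP Γ V _ _ act B hB hI hpV h0 v hv hfix
  have hB' := hB.mono hI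
  refine hB'.eq_zero_of_mem_conn_of_fixed Fact.out hp2 hP le_rfl hpV h0 ?_ hfix
  rw [IsPOrder.mem_conn_iff] at hv ⊢
  exact hv

/-- (MULT). -/
theorem multAvg : MultAvg := by
  intro p _ hp2 P hP Γ V _ _ act B hB hI hpV hact f hf
  classical
  have hp : p.Prime := Fact.out
  have hB' := hB.mono hI
  have hsurj : ∀ σ ∈ P.inertiaSubgroupIn ℚ, Function.Surjective (act σ) := fun σ hσ v =>
    ⟨act σ⁻¹ v, by
      rw [← hB'.act_mul_apply hσ (inv_mem hσ), mul_inv_cancel, hB'.act_one_apply]⟩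
  have hchar : ∀ ψ : AddChar V Qb, Equivar (P.inertiaSubgroupIn ℚ) act ψ := by
    intro ψ σ hσ v
    obtain ⟨a, ha⟩ := exists_pow_of_rootsOfUnity hp σ
    rw [hact σ hσ a ha v, AddChar.map_nsmul_eq_pow, ha]
    rw [← AddChar.map_nsmul_eq_pow, hpV, AddChar.map_zero_eq_one]
  have h := hB'.average_mem hp hp2 hP le_rfl hpV hsurj hchar hf
  rw [div_eq_inv_mul] at h
  exact h

/-- (RAY): Raynaud's bound for a line. -/
theorem ray (k : Type) [Field k] : Ray k := by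
  intro p _ _ hk P hP Γ act B hB hD χ hχ _
  exact raynaud_line Fact.out hk hP hB hD χ hχ

end Fermat.Agent.TW.Flat.Ord
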