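import Fermat.Agent.TW.Flat.Defs
import Fermat.Agent.TW.Local.StrictOrd

/-!
# FLAT-ORD-UNIQUE: the line of the ordinary shape is unique

If two non-proportional lines had the ordinary shape, inertia at `p` would act trivially on `k²`,
contradicting `det rb = ω` and the ramification of the mod `p` cyclotomic character (`p` odd).
-/

set_option autoImplicit false

namespace Fermat.Agent.TW.Flat

open Fermat.Agent.S53 Fermat.Agent.TW

/-- **FLAT-ORD-UNIQUE** (the named statement `OrdUnique` of `TW/Flat/Defs.lean`). -/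
theorem ordUnique (k : Type) [Field k] : OrdUnique k := by
  intro rb p _ hp2 h P hP v0 v1 h0 h1
  obtain ⟨σ, hσ, hdet⟩ := StrictOrd.exists_inertia_det_ne_one rb p hp2 h P hP
  by_contra hcon
  apply hdet
  have hfix : ∀ w : Fin 2 → k, (rb σ).mulVec w = w := by
    intro w
    obtain ⟨a, ha⟩ := h0.2.2 σ hσ w
    obtain ⟨b, hb⟩ := h1.2.2 σ hσ w
    by_cases ha0 : a = 0
    · rw [ha0, zero_smul, sub_eq_zero] at ha
      exact ha
    · exfalso
      have hab : b • v1 = a • v0 := by rw [← hb, ha]
      by_cases hb0 : b = 0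
      · rw [hb0, zero_smul] at hab
        rcases smul_eq_zero.mp hab.symm with h' | h'
        · exact ha0 h'
        · exact h0.1 h'
      · refine hcon ⟨b⁻¹ * a, mul_ne_zero (inv_ne_zero hb0) ha0, ?_⟩
        rw [mul_smul, ← hab, smul_smul, inv_mul_cancel₀ hb0, one_smul]
  have h1' : rb σ = 1 := by
    apply Matrix.toLin'.injective
    refine LinearMap.ext fun w => ?_
    rw [Matrix.toLin'_apply, hfix w, Matrix.toLin'_one, LinearMap.id_apply]
  rw [h1', Matrix.det_one]

end Fermat.Agent.TW.Flat
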