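/-
TW-FLAT, row 321 (FLAT-ORD-CONTAIN): the containment in the reducible case, modulo (RAY).

`ordContain_of : Ord.Ray k → OrdContain k`.  Route: a flat lift gives a `k[ε]`-stable order on
`k[ε]²` (`Ord.exists_stable_order`) and a `k`-stable order on `k²` (`Ord.bar_order'`); the
connected component of the latter is the ordinary line `k·v0` (`Ord.shape`, uses (RAY), (INJ-0),
(MULT)); the connected component of the former is free of rank one over `k[ε]`, generated by a
lift `v0 + ε u` of `v0` (`Ord.rank`); after transport by `1 + εX`, `X v0 = u`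
(`Ord.transport_order`), it is `k[ε]·v0`, and then the cocycle is ordinary flat and `rb` is peu
ramifié (`Ord.isFlOrd_of_conn`, unit Kummer witnesses).
-/
import Mathlib
import Fermat.Agent.TW.Flat.Ord.Sat
import Fermat.Agent.TW.Flat.Ord.Shape
import Fermat.Agent.TW.Flat.Ord.Rank
import Fermat.Agent.TW.Flat.Ord.Peu

set_option autoImplicit false
set_option linter.unusedSectionVars false

namespace Fermat.Agent.TW.Flat.Ord

open Fermat.Agent.S53 Fermat.Agent.TW Fermat.Agent.Lib.FinFlat Fermat.Agent.TW.Flat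
open Fermat.Agent.TW.StrictOrd Fermat.Agent.TW.TangentLift

local notation "Qb" => AlgebraicClosure ℚ

/-- The connected component of a pulled-back order. -/
theorem mem_conn_map_compHom {P : ValuationSubring Qb} {Γ Γ' : Subgroup GQ} {V V' : Type}
    [AddCommGroup V] [AddCommGroup V'] [Finite V] [Finite V'] {act : GQ → V → V}
    {act' : GQ → V' → V'} {B : Subalgebra P (V → Qb)} (hB : IsPOrder P Γ act B) (j : V' → V)
    (hj0 : j 0 = 0) (hB' : IsPOrder P Γ' act' (B.map (compHom P j))) (v : V') :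
    v ∈ hB'.conn ↔ j v ∈ hB.conn := by
  rw [hB'.mem_conn_iff, hB.mem_conn_iff]
  constructor
  · intro h f hf
    have := h (fun v => f (j v)) ((mem_map_compHom j _).2 ⟨f, hf, rfl⟩)
    rwa [hj0] at this
  · intro h g hg
    obtain ⟨f, hf, rfl⟩ := (mem_map_compHom j _).1 hg
    have := h f hf
    show f (j v) - f (j 0) ∈ P.nonunits
    rwa [hj0]

variable {k : Type} [Field k]

/-- **FLAT-ORD-CONTAIN modulo (RAY).** -/
theorem ordContain_of [Finite k] (hRay : Ray k) : OrdContain k := by
  intro rb p _ hp2 h P hP hline c hc hfl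
  obtain ⟨B, hB, hstab⟩ := exists_stable_order hfl
  obtain ⟨hBbar, hstabbar⟩ := bar_order' hB hstab
  obtain ⟨v0, hv0, hconn0⟩ := shape hRay hp2 h hP hline hBbar hstabbar
  have heps0 : epsV (0 : Fin 2 → k) = 0 := funext fun i => TrivSqZeroExt.inr_zero _
  have hbar : ∀ v : Fin 2 → k, epsV v ∈ hB.conn ↔ ∃ a : k, v = a • v0 := by
    intro v
    rw [← hconn0 v]
    exact (mem_conn_map_compHom hB epsV heps0 hBbar v).symm
  obtain ⟨u, hu⟩ := rank hp2 h hP hB hstab hv0 hbar
  obtain ⟨X, hX0, hXu⟩ := exists_trace_zero_mulVec_eq hv0.1 u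
  obtain ⟨B', hB', hstab', hconn'⟩ := transport_order hB hstab X
  have key : ∀ a : DualNumber k, epsShear X (a • inlV v0) = a • (inlV v0 + epsV u) := by
    intro a
    rw [epsShear_smul, epsShear_apply, fstV_inlV, hXu]
  have hconn : ∀ w, w ∈ hB'.conn ↔ ∃ a : DualNumber k, w = a • inlV v0 := by
    intro w
    rw [hconn', hu]
    constructor
    · rintro ⟨a, ha⟩
      exact ⟨a, epsShear_injective X (by rw [key]; exact ha)⟩
    · rintro ⟨a, rfl⟩
      exact ⟨a, key a⟩
  have htr : ∀ σ, ((c + cob rb 1 X) σ).trace = 0 := by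
    intro σ
    rw [Pi.add_apply, Matrix.trace_add, hc.1 σ, zero_add, cob_apply, adAct_apply,
      one_hom_apply_coe, one_smul, Matrix.trace_sub, Matrix.trace_mul_comm, ← mul_assoc,
      rb_inv_mul_rb, one_mul, sub_self]
  obtain ⟨hfl', hpeu⟩ := isFlOrd_of_conn hp2 h hP htr hB' hv0 hconn
  refine ⟨v0, hv0, hpeu, ?_⟩
  rw [mem_LOrd]
  refine ⟨resOn_mem_Z1On _ hc, -X, by rw [Matrix.trace_neg, hX0, neg_zero], ?_⟩
  have e : resOn (P.decompositionSubgroup ℚ) c -
      resOn (P.decompositionSubgroup ℚ) (cob rb 1 (-X)) =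
      resOn (P.decompositionSubgroup ℚ) (c + cob rb 1 X) := by
    rw [map_neg, map_neg, sub_neg_eq_add, map_add]
  rw [e]
  exact hfl'

end Fermat.Agent.TW.Flat.Ord
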