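/-
TW-FLAT, row 321 (FLAT-ORD-CONTAIN): the containment in the reducible case, unconditionally.

`ordContain k : OrdContain k` for a finite field `k`: `Ord.ordContain_of` (TW/Flat/OrdContain.lean)
applied to Raynaud's bound `Ord.ray k` (TW/Flat/OrdCalc.lean).
-/
import Mathlib
import Fermat.Agent.TW.Flat.OrdContain
import Fermat.Agent.TW.Flat.OrdCalc

set_option autoImplicit false

namespace Fermat.Agent.TW.Flat

open Fermat.Agent.S53 Fermat.Agent.TW

/-- **FLAT-ORD-CONTAIN** (the named statement `OrdContain` of `TW/Flat/Defs.lean`). -/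
theorem ordContain (k : Type) [Field k] [Finite k] : OrdContain k :=
  Ord.ordContain_of (Ord.ray k)

end Fermat.Agent.TW.Flat
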