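/-
FLAT-SS-STRUCT (task 334), part 4: `ssStruct (hU : Loc.Unr) : Loc.SSStruct k` for finite `k`.
-/
import Mathlib
import Fermat.Agent.TW.Flat.SSStruct.Kum
import Fermat.Agent.TW.Flat.SSStruct.Lin

set_option autoImplicit false
set_option linter.style.haveILetI false

namespace Fermat.Agent.TW.Flat.SSStructProof

open Fermat.Agent.S53 Fermat.Agent.TW Fermat.Agent.TW.Flat Fermat.Agent.Lib.TameProp

local notation "Qb" => AlgebraicClosure ℚ

attribute [local instance] Fermat.Agent.Lib.GalQbar.isAlgClosure_rat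
  Fermat.Agent.Lib.GalQbar.isGalois_rat Fermat.Agent.Lib.GalQbar.isAlgebraic_rat
  Fermat.Agent.Lib.GalQbar.normal_rat

variable {P : ValuationSubring Qb}

/-- In a finite group every integer power is a natural power. -/
theorem exists_nat_pow_of_zpow {G : Type*} [Group G] [Finite G] (x : G) (n : ℤ) :
    ∃ m : ℕ, x ^ n = x ^ m := by
  have hpos : (0 : ℤ) < orderOf x := by exact_mod_cast orderOf_pos x
  refine ⟨(n % (orderOf x : ℤ)).toNat, ?_⟩
  rw [← zpow_natCast, Int.toNat_of_nonneg (Int.emod_nonneg _ hpos.ne'), zpow_mod_orderOf]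

theorem theta_mul_inv_eq_one (π : Qb) (hπ : π ≠ 0) (x y : ↥(P.inertiaSubgroupIn ℚ))
    (h : theta P π hπ x = theta P π hπ y) : theta P π hπ (x * y⁻¹) = 1 := by
  rw [map_mul, h, ← map_mul, mul_inv_cancel, map_one]

/-- **[SS-STRUCT]**, given `Loc.Unr`. -/
theorem ssStruct {k : Type} [Field k] [Finite k] (hU : Loc.Unr) : Loc.SSStruct k := by
  intro rb p hp hp2 h P hP hline ϖ hϖ σ hσ hσϖ
  classical
  obtain ⟨L₀, hL₀fin, hL₀⟩ := h.finiteLevel
  haveI := hL₀fin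
  set L : IntermediateField ℚ Qb := IntermediateField.normalClosure ℚ ↥L₀ Qb with hLdef
  have hL₀L : L₀ ≤ L := L₀.le_normalClosure
  haveI : FiniteDimensional ℚ L := normalClosure.is_finiteDimensional ℚ ↥L₀ Qb
  haveI : Normal ℚ L := normalClosure.normal ℚ ↥L₀ Qb
  haveI : NumberField L := Fermat.Agent.PT.PlaceDict.numberField L
  have hp0 : (p : Qb) ≠ 0 := by exact_mod_cast hp.out.ne_zero
  have hvp : P.valuation (p : Qb) < 1 := P.mem_nonunits_iff.mp hP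
  obtain ⟨π, hπL, -, hπ1, hπ⟩ := Fermat.Agent.PT.PlaceDict.exists_uniformizer L hp.out hP
  have hπ0 : π ≠ 0 := by
    rintro rfl
    obtain ⟨n, hn⟩ := hπ (p : Qb) (natCast_mem L p) hp0
    rcases eq_or_ne n 0 with rfl | hn0
    · rw [zpow_zero, map_one] at hn
      exact (ne_of_lt hvp) hn
    · rw [zero_zpow n hn0, map_zero] at hn
      exact hp0 ((map_eq_zero _).mp hn)
  haveI : CharP k p := (CharP.charP_iff_prime_eq_zero hp.out).2 h.charP
  have hlev : ∀ τ : GQ, (∀ y ∈ L, τ y = y) → rb τ = 1 := fun τ hτ =>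
    hL₀ τ fun y hy => hτ y (hL₀L hy)
  -- (i) wild elements act through elements of `p`-power order
  have hwild : ∀ τ : ↥(P.inertiaSubgroupIn ℚ), theta P π hπ0 τ = 1 →
      ∃ a : ℕ, rb (τ : GQ) ^ p ^ a = 1 := by
    intro τ hτ
    have hU1 := (theta_eq_one_iff P π hπ0 τ).1 hτ
    obtain ⟨a, ha⟩ := exists_pow_fix_of_U1 hp.out hP L
      (U1_ratio_of_uniformizer L π hπ0 hπ τ.2 hU1)
    exact ⟨a, by rw [← map_pow]; exact hlev _ ha⟩
  obtain ⟨v, hv0, hvfix⟩ := exists_common_fixed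
    {g : Matrix (Fin 2) (Fin 2) k | ∃ τ : ↥(P.inertiaSubgroupIn ℚ),
      theta P π hπ0 τ = 1 ∧ rb (τ : GQ) = g}
    (by
      rintro g ⟨τ, hτ, rfl⟩ g' ⟨τ', hτ', rfl⟩
      exact ⟨τ * τ', by rw [map_mul, hτ, hτ', one_mul], by rw [Subgroup.coe_mul, map_mul]⟩)
    (by
      rintro g ⟨τ, hτ, rfl⟩
      obtain ⟨a, ha⟩ := hwild τ hτ
      exact unipotent_of_pow _ a ha)
  have hδ : ∃ δ ∈ P.decompositionSubgroup ℚ, ∀ a : k, (rb δ).mulVec v ≠ a • v := by
    by_contra hcon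
    push Not at hcon
    exact hline ⟨v, hv0, hcon⟩
  obtain ⟨δ, hδD, hδv⟩ := hδ
  -- `rb` is trivial on the wild part
  have hW : ∀ τ : ↥(P.inertiaSubgroupIn ℚ), theta P π hπ0 τ = 1 → rb (τ : GQ) = 1 := by
    intro τ hτ
    have hfix1 : (rb (τ : GQ)).mulVec v = v := hvfix _ ⟨τ, hτ, rfl⟩
    have hδinv : δ⁻¹ ∈ P.decompositionSubgroup ℚ := Subgroup.inv_mem _ hδD
    have hconj := theta_conj π hπ0 hδinv τ
    rw [hτ, map_one] at hconj
    have hfix2' : (rb (δ⁻¹ * (τ : GQ) * δ⁻¹⁻¹)).mulVec v = v := hvfix _ ⟨_, hconj, rfl⟩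
    have hfix2 : (rb (τ : GQ)).mulVec ((rb δ).mulVec v) = (rb δ).mulVec v := by
      have e : rb (τ : GQ) * rb δ = rb δ * rb (δ⁻¹ * (τ : GQ) * δ⁻¹⁻¹) := by
        rw [← map_mul, ← map_mul]
        congr 1
        group
      rw [Matrix.mulVec_mulVec, e, ← Matrix.mulVec_mulVec, hfix2']
    rcases smul_or_basis v ((rb δ).mulVec v) hv0 with ⟨c, hc⟩ | ⟨hspan, -⟩
    · exact (hδv c hc).elim
    · exact eq_of_mulVec_eq hspan (by rw [hfix1, Matrix.one_mulVec])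
        (by rw [hfix2, Matrix.one_mulVec])
  -- units
  set rbU : GQ →* (Matrix (Fin 2) (Fin 2) k)ˣ := rb.toHomUnits with hrbU
  have hrbU_val : ∀ g : GQ,
      ((rbU g : (Matrix (Fin 2) (Fin 2) k)ˣ) : Matrix (Fin 2) (Fin 2) k) = rb g :=
    fun g => MonoidHom.coe_toHomUnits rb g
  obtain ⟨t, ht⟩ := exists_generator P π hπ0
  set Tu := rbU (t : GQ) with hTu
  -- (ii) `rb(I)` is generated by `T`
  have hcyc : ∀ τ : ↥(P.inertiaSubgroupIn ℚ), ∃ n : ℕ, rbU (τ : GQ) = Tu ^ n := by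
    intro τ
    obtain ⟨n, hn⟩ := ht τ
    have h1 : rbU ((τ * t ^ (-n) : ↥(P.inertiaSubgroupIn ℚ)) : GQ) = 1 :=
      Units.ext (by rw [hrbU_val, hW _ hn]; rfl)
    rw [Subgroup.coe_mul, Subgroup.coe_zpow, map_mul, map_zpow, zpow_neg, mul_inv_eq_one] at h1
    obtain ⟨m, hm⟩ := exists_nat_pow_of_zpow Tu n
    exact ⟨m, by rw [h1, hm]⟩
  -- Frobenius
  obtain ⟨φ, hφ⟩ :=
    Fermat.Agent.Lib.FrobeniusExists.exists_isFrobeniusAt_of_liesOverPrime hp.out P hP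
  have hφD : φ ∈ P.decompositionSubgroup ℚ := hφ.mem_decompositionSubgroup
  set Ψu := rbU φ⁻¹ with hΨu
  -- (iii) `T Ψ = Ψ T^p`
  have hcomm : Tu * Ψu = Ψu * Tu ^ p := by
    have h1 := theta_conj π hπ0 hφD t
    have h2 : Fermat.Agent.Lib.Tame.resHom φ hφD (theta P π hπ0 t) = theta P π hπ0 (t ^ p) := by
      rw [map_pow]
      exact hφ.smul_residue_eq _
    rw [h2] at h1
    have h3 := hW _ (theta_mul_inv_eq_one π hπ0 _ _ h1)
    have h4 : rbU (φ * (t : GQ) * φ⁻¹ * ((t : GQ) ^ p)⁻¹) = 1 :=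
      Units.ext (by rw [hrbU_val]; exact h3)
    simp only [map_mul, map_inv, map_pow] at h4
    rw [mul_inv_eq_one] at h4
    rw [← h4, hΨu, map_inv, hTu]
    group
  -- (iv) the decomposition group
  have hdec : ∀ δ' ∈ P.decompositionSubgroup ℚ, ∃ j n : ℕ, rbU δ' = Ψu ^ j * Tu ^ n := by
    intro δ' hδ'
    obtain ⟨j, τ, hτ, hx⟩ := Fermat.Agent.Lib.Tame.decomposition_eq_frobenius_pow_mul_inertia
      p hp.out P hP φ hφ L₀ δ' hδ'
    have h1 : rb ((φ ^ j * τ)⁻¹ * δ') = 1 := by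
      apply hL₀
      intro y hy
      rw [AlgEquiv.mul_apply, hx y hy]
      exact Fermat.Agent.Lib.InertiaLift.inv_apply_apply _ _
    have h2 : rbU ((φ ^ j * τ)⁻¹ * δ') = 1 := Units.ext (by rw [hrbU_val, h1]; rfl)
    rw [map_mul, map_inv, inv_mul_eq_one] at h2
    obtain ⟨n, hn⟩ := hcyc ⟨τ, hτ⟩
    obtain ⟨j', hj'⟩ := exists_nat_pow_of_zpow Ψu (-(j : ℤ))
    refine ⟨j', n, ?_⟩
    rw [← h2, map_mul, map_pow, hn, ← hj', hΨu, map_inv, inv_zpow', neg_neg, zpow_natCast]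
  -- matrices
  have hTval : (Tu : Matrix (Fin 2) (Fin 2) k) = rb (t : GQ) := hrbU_val _
  have hΨval : (Ψu : Matrix (Fin 2) (Fin 2) k) = rb φ⁻¹ := hrbU_val _
  have hcommM : rb (t : GQ) * rb φ⁻¹ = rb φ⁻¹ * rb (t : GQ) ^ p := by
    have := congrArg Units.val hcomm
    rwa [Units.val_mul, Units.val_mul, Units.val_pow_eq_pow_val, hTval, hΨval] at this
  have hTdet : (rb (t : GQ)).det ≠ 0 := by
    have := (Matrix.isUnit_iff_isUnit_det _).1 Tu.isUnit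
    rw [hTval] at this
    exact this.ne_zero
  have hΨdet : (rb φ⁻¹).det ≠ 0 := by
    have := (Matrix.isUnit_iff_isUnit_det _).1 Ψu.isUnit
    rw [hΨval] at this
    exact this.ne_zero
  have hpow1 : rb (t : GQ) ^ (p ^ 2 - 1) = 1 := by
    apply pow_eq_one_of_swap hp.out.pos (rb (t : GQ)) (rb φ⁻¹) hΨdet hTdet hcommM (h.split _)
      (h.split _)
    rintro w hw0 ⟨a, ha⟩ ⟨c, hc⟩
    apply hline
    refine ⟨w, hw0, fun δ' hδ' => ?_⟩
    obtain ⟨j, n, hjn⟩ := hdec δ' hδ'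
    have e : rb δ' = rb φ⁻¹ ^ j * rb (t : GQ) ^ n := by
      have := congrArg Units.val hjn
      rwa [hrbU_val, Units.val_mul, Units.val_pow_eq_pow_val, Units.val_pow_eq_pow_val, hTval,
        hΨval] at this
    refine ⟨c ^ j * a ^ n, ?_⟩
    rw [e, ← Matrix.mulVec_mulVec, pow_mulVec_of_eigen _ w a ha, Matrix.mulVec_smul,
      pow_mulVec_of_eigen _ w c hc, smul_smul, mul_comm]
  -- TameKum
  have hTu1 : Tu ^ (p ^ 2 - 1) = 1 :=
    Units.ext (by rw [Units.val_pow_eq_pow_val, hTval, hpow1]; rfl)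
  letI : CommGroup ↥(Subgroup.zpowers Tu) :=
    { (inferInstance : Group ↥(Subgroup.zpowers Tu)) with
      mul_comm := (Subgroup.zpowers_isMulCommutative Tu).is_comm.comm }
  let f : ↥(P.inertiaSubgroupIn ℚ) →* ↥(Subgroup.zpowers Tu) :=
    (rbU.comp (P.inertiaSubgroupIn ℚ).subtype).codRestrict (Subgroup.zpowers Tu) (fun τ => by
      obtain ⟨n, hn⟩ := hcyc τ
      exact Subgroup.mem_zpowers_iff.2 ⟨n, by rw [zpow_natCast]; exact hn.symm⟩)
  have hf : ∀ τ : ↥(P.inertiaSubgroupIn ℚ),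
      ((f τ : ↥(Subgroup.zpowers Tu)) : (Matrix (Fin 2) (Fin 2) k)ˣ) = rbU (τ : GQ) :=
    fun τ => rfl
  have hp21 : 0 < p ^ 2 - 1 := by
    have h2 : 2 ≤ p := hp.out.two_le
    have h4 : 2 * 2 ≤ p ^ 2 := by
      rw [pow_two]
      exact Nat.mul_le_mul h2 h2
    omega
  have hpnd : ¬ p ∣ p ^ 2 - 1 := by
    intro hdiv
    have h1 : p ∣ p ^ 2 := dvd_pow_self p two_ne_zero
    have h2 : p ∣ p ^ 2 - (p ^ 2 - 1) := Nat.dvd_sub h1 hdiv
    have h3 : p ^ 2 - (p ^ 2 - 1) = 1 := by omega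
    rw [h3] at h2
    exact hp.out.one_lt.ne' (Nat.dvd_one.1 h2)
  have key := tameKum hU p P hP (p ^ 2 - 1) hp21 hpnd ϖ hϖ f
    (fun τ => by
      apply Subtype.ext
      obtain ⟨n, hn⟩ := hcyc τ
      rw [Subgroup.coe_pow, hf, hn, ← pow_mul, mul_comm, pow_mul, hTu1, one_pow]
      rfl)
    ⟨L₀, hL₀fin, fun τ hτ => by
      apply Subtype.ext
      rw [hf]
      exact Units.ext (by rw [hrbU_val, hL₀ _ hτ]; rfl)⟩
    ⟨σ, hσ⟩ hσϖ
  have h5 := congrArg Units.val (congrArg Subtype.val key)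
  rw [hf, hrbU_val] at h5
  exact h5

end Fermat.Agent.TW.Flat.SSStructProof
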