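/-
FLAT-SS-STRUCT (task 334), final wrappers: the three statements, unconditionally
(`Loc.Unr` is `Loc.Basic.unr`, TW/Flat/Local/Unr.lean).
-/
import Mathlib
import Fermat.Agent.TW.Flat.SSStruct
import Fermat.Agent.TW.Flat.Local.Unr

set_option autoImplicit false

namespace Fermat.Agent.TW.Flat.SSStructProof

open Fermat.Agent.TW.Flat

/-- **[TAME-KUM]**, unconditional. -/
theorem tameKum_final : Loc.TameKum := tameKum Loc.Basic.unr

/-- **[SS-STRUCT]**, unconditional. -/
theorem ssStruct_final {k : Type} [Field k] [Finite k] : Loc.SSStruct k := ssStruct Loc.Basic.unr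

/-- **[TAME-WILD]**, unconditional (restated for uniformity). -/
theorem tameWild_final : Loc.TameWild := tameWild

end Fermat.Agent.TW.Flat.SSStructProof
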