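/-
TW-FLAT (task 335, FLAT-SS-COUNT): in the irreducible case the supersingular condition has
dimension `≤ 1` modulo coboundaries: `#(LSS ⊔ B1On) ≤ #k · #B1On`.
-/
import Mathlib
import Fermat.Agent.TW.Flat.SS.Count
import Fermat.Agent.TW.Flat.SS.PairsCard
import Fermat.Agent.TW.Flat.Local.Tame
import Fermat.Agent.TW.Flat.Local.Teich
import Fermat.Agent.TW.Flat.Local.CloseRoot
import Fermat.Agent.TW.Local.StrictOrd
import Fermat.Agent.Lib.FinFlat.Dual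
import Fermat.Agent.TW.Flat.SSStructFinal

set_option autoImplicit false
set_option linter.unusedSectionVars false

namespace Fermat.Agent.TW.Flat.SS

open Fermat.Agent.S53 Fermat.Agent.TW Fermat.Agent.TW.Flat IsLocalRing

local notation "Qb" => AlgebraicClosure ℚ

variable {k : Type} [Field k]

theorem det_rb_ne_zero (rb : GQ →* Mat2 k) (σ : GQ) : (rb σ).det ≠ 0 := by
  intro h
  have h1 := congrArg Matrix.det (rb_mul_rb_inv rb σ)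
  rw [Matrix.det_mul, h, zero_mul, Matrix.det_one] at h1
  exact zero_ne_one h1

theorem det_conj {Q Qi : Mat2 k} (hQi : Qi * Q = 1) (g : Mat2 k) : (Qi * g * Q).det = g.det := by
  have h1 : Qi.det * Q.det = 1 := by rw [← Matrix.det_mul, hQi, Matrix.det_one]
  rw [Matrix.det_mul, Matrix.det_mul, mul_comm Qi.det, mul_assoc, h1, mul_one]

theorem add_mem_nonunits {P : ValuationSubring Qb} {x y : Qb} (hx : x ∈ P.nonunits)
    (hy : y ∈ P.nonunits) : x + y ∈ P.nonunits := by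
  rw [P.mem_nonunits_iff] at hx hy ⊢
  exact lt_of_le_of_lt (P.valuation.map_add _ _) (max_lt hx hy)

/-- `G_F` is normalised by the decomposition group. -/
theorem gf_conj (p : ℕ) [Fact p.Prime] (P : ValuationSubring Qb) (hP : P.LiesOverPrime p)
    (ϖ : Qb) (hϖ : ϖ ^ (p ^ 2 - 1) = -(p : Qb)) (τ : GQ) (hτ : τ ∈ P.decompositionSubgroup ℚ)
    (σ : GQ) (hσ : σ ∈ P.inertiaSubgroupIn ℚ) (hσϖ : σ ϖ = ϖ) :
    τ⁻¹ * σ * τ ∈ P.inertiaSubgroupIn ℚ ∧ (τ⁻¹ * σ * τ) ϖ = ϖ := by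
  have he := Levels.sq_sub_one_pos p
  have hpe := Levels.not_dvd_sq_sub_one p
  have hϖ0 : ϖ ≠ 0 := Levels.varpi_ne_zero hϖ
  refine ⟨?_, ?_⟩
  · have := Away.conj_mem_inertiaSubgroupIn P (inv_mem hτ) hσ
    rwa [inv_inv] at this
  · have h1 : (τ ϖ / ϖ) ^ (p ^ 2 - 1) = 1 := ResB1.ratio_pow p (p ^ 2 - 1) hpe ϖ hϖ τ
    have h2 : σ (τ ϖ / ϖ) = τ ϖ / ϖ := Loc.Basic.rootFix p P hP _ _ he hpe h1 σ hσ
    have h3 : τ ϖ = τ ϖ / ϖ * ϖ := (div_mul_cancel₀ _ hϖ0).symm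
    have h4 : σ (τ ϖ) = τ ϖ := by
      rw [h3, map_mul, h2, hσϖ]
    show τ⁻¹ (σ (τ ϖ)) = ϖ
    rw [h4]
    show (τ⁻¹ * τ) ϖ = ϖ
    rw [inv_mul_cancel]
    rfl

/-- The square of a Frobenius element acts on the residue field as `x ↦ x ^ (p²)`. -/
theorem frob_sq_res (p : ℕ) [Fact p.Prime] (P : ValuationSubring Qb) (φ : GQ)
    (hφD : φ ∈ P.decompositionSubgroup ℚ) (hφres : ∀ x ∈ P, φ x - x ^ p ∈ P.nonunits)
    (x : Qb) (hx : x ∈ P) : (φ * φ) x - x ^ (p ^ 2) ∈ P.nonunits := by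
  have h1 := Fermat.Agent.PT.G.apply_mem_nonunits_of_mem_decompositionSubgroup P hφD
    (hφres x hx)
  have h2 := hφres (x ^ p) (pow_mem hx p)
  have e : (φ * φ) x - x ^ (p ^ 2) = φ (φ x - x ^ p) + (φ (x ^ p) - (x ^ p) ^ p) := by
    rw [map_sub, ← pow_mul, ← sq]
    show φ (φ x) - x ^ (p ^ 2) = _
    ring
  rw [e]
  exact add_mem_nonunits h1 h2

theorem finite_B1On [Finite k] (rb : GQ →* Mat2 k) (D : Subgroup GQ) :
    Finite ↥(B1On D rb 1) := by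
  have hs : (↑(B1On D rb 1) : Set (↥D → Mat2 k)).Finite := by
    have : (↑(B1On D rb 1) : Set (↥D → Mat2 k)) =
        ((resOn D).comp (cob rb 1)) '' (↑(sl2 k) : Set (Mat2 k)) := rfl
    rw [this]
    exact (Set.toFinite _).image _
  exact hs.to_subtype

/-- **FLAT-SS-COUNT.** -/
theorem ssCount [Finite k] (hst : Loc.SSStruct k) (hTK : Loc.TameKum) : SSCount k := by
  intro rb p _ hp2 h P hP hline
  have hp : p.Prime := Fact.out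
  have he := Levels.sq_sub_one_pos p
  have hpe := Levels.not_dvd_sq_sub_one p
  have hfin : Finite ↥(B1On (P.decompositionSubgroup ℚ) rb 1) := finite_B1On rb _
  -- the uniformiser, the tame generator, a Frobenius element
  obtain ⟨ϖ, hϖ, hϖ0, -⟩ := Loc.Basic.exists_root_neg_p p P hP (p ^ 2 - 1) he
  have : NeZero (p ^ 2 - 1) := ⟨he.ne'⟩
  obtain ⟨ξ₀, hξ₀⟩ := HasEnoughRootsOfUnity.exists_primitiveRoot Qb (p ^ 2 - 1)
  obtain ⟨τ₀, hτ₀, hτ₀ϖ⟩ := Loc.Tame.fConj p P hP (p ^ 2 - 1) he hpe ϖ hϖ ξ₀ hξ₀.pow_eq_one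
  obtain ⟨w, hw⟩ := StrictOrd.exists_cyclo_exponent p τ₀
  obtain ⟨φ, hφ, hφD, hφres, -, -⟩ := Loc.Basic.exists_frobenius p P hP
  obtain ⟨w₂, hw₂⟩ := StrictOrd.exists_cyclo_exponent p (φ * φ)
  obtain ⟨Q, Qi, a₁, a₂, b₁, b₂, hQ, hQi, ha, ha21, ha12, hb₁, hb₂, hdτ, hdφ⟩ :=
    exists_eigen_structure hst rb p hp2 h P hP hline ϖ hϖ τ₀ hτ₀ ξ₀ hξ₀ hτ₀ϖ φ hφ
  obtain ⟨lam, hlam⟩ := Fermat.Agent.Lib.FinFlat.exists_addChar_ne_one (V := k) (v := 1)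
    one_ne_zero
  have S : Ctx rb p P ϖ lam :=
    { hp2 := hp2
      hpk := h.charP
      hP := hP
      hϖ := hϖ
      hlam := hlam
      hrb1 := fun σ hσ hσϖ => hst rb p hp2 h P hP hline ϖ hϖ σ hσ hσϖ
      hK3 := k3_of Loc.Tame.fVal
      hK4 := k4_of Loc.Basic.teich Loc.Basic.rootFix Loc.Tame.fVal
      hK4' := k4'_of Loc.Basic.teich Loc.Basic.rootFix Loc.Tame.fVal
      hK5 := k5_of Loc.Close.closeRoot hTK
      hFV := Loc.Tame.fVal }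
  have T : Tame p P ϖ τ₀ ξ₀ w := ⟨hτ₀, hξ₀, hτ₀ϖ, hw⟩
  -- the eigenvalues
  have hdet : a₁ * a₂ = (w : k) := by
    have h1 := det_conj hQi (rb τ₀)
    rw [hdτ, Matrix.det_fin_two_of, mul_zero, sub_zero, h.detCyc τ₀ w hw] at h1
    exact h1
  have hw0 : (w : k) ≠ 0 := by
    rw [← h.detCyc τ₀ w hw]
    exact det_rb_ne_zero rb τ₀
  have ha₁ : a₁ ≠ 0 := fun h0 => hw0 (by rw [← hdet, h0, zero_mul])
  have ha₂ : a₂ ≠ 0 := fun h0 => hw0 (by rw [← hdet, h0, mul_zero])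
  have hw₂0 : (w₂ : k) ≠ 0 := by
    rw [← h.detCyc (φ * φ) w₂ hw₂]
    exact det_rb_ne_zero rb (φ * φ)
  -- the coordinates
  set f12 : Mat2 k →ₗ[k] k := coord Qi Q 0 1 with hf12
  set fh : Mat2 k →ₗ[k] k := coord Qi Q 0 0 with hfh
  set f21 : Mat2 k →ₗ[k] k := coord Qi Q 1 0 with hf21
  have hτ12 : ∀ X, f12 (rb τ₀⁻¹ * X * rb τ₀) = a₂ / a₁ * f12 X := fun X =>
    (coord_conj_diag hQ hQi (rb_inv_mul_rb rb τ₀) ha₁ ha₂ hdτ X).1
  have hτh : ∀ X, fh (rb τ₀⁻¹ * X * rb τ₀) = fh X := fun X =>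
    (coord_conj_diag hQ hQi (rb_inv_mul_rb rb τ₀) ha₁ ha₂ hdτ X).2
  have hφ12 : ∀ X, f12 (rb φ⁻¹ * X * rb φ) = b₁ / b₂ * f21 X := fun X =>
    coord_conj_anti hQ hQi (rb_inv_mul_rb rb φ) hb₁ hb₂ hdφ X
  have hdφ₂ : Qi * rb (φ * φ) * Q = !![b₁ * b₂, 0; 0, b₂ * b₁] := by
    have e : Qi * rb (φ * φ) * Q = (Qi * rb φ * Q) * (Qi * rb φ * Q) := by
      rw [map_mul]
      calc Qi * (rb φ * rb φ) * Q = Qi * rb φ * 1 * rb φ * Q := by
            simp only [mul_one, mul_assoc]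
        _ = Qi * rb φ * (Q * Qi) * rb φ * Q := by rw [hQ]
        _ = (Qi * rb φ * Q) * (Qi * rb φ * Q) := by simp only [mul_assoc]
    rw [e, hdφ]
    ext i j
    fin_cases i <;> fin_cases j <;> simp [Matrix.mul_apply, Fin.sum_univ_two]
  have hφ₂12 : ∀ X, f12 (rb (φ * φ)⁻¹ * X * rb (φ * φ)) = f12 X := fun X => by
    have h1 := (coord_conj_diag hQ hQi (rb_inv_mul_rb rb (φ * φ)) (mul_ne_zero hb₁ hb₂)
      (mul_ne_zero hb₂ hb₁) hdφ₂ X).1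
    rw [h1, mul_comm b₂ b₁, div_self (mul_ne_zero hb₁ hb₂), one_mul]
  -- the multiplier `m₀ = a₂ ^ 2`
  have hm0 : (w : k) * (a₂ / a₁) = a₂ ^ 2 := by
    rw [← hdet]
    field_simp
  have hm1 : (w : k) * (a₂ / a₁) ≠ 1 := by
    rw [hm0]
    intro h1
    have h2 : (a₂ - 1) * (a₂ + 1) = 0 := by linear_combination h1
    apply ha
    rcases mul_eq_zero.mp h2 with h3 | h3
    · have h4 : a₂ = 1 := by linear_combination h3
      rw [ha12, h4, one_pow]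
    · have h4 : a₂ = -1 := by linear_combination h3
      rw [ha12, h4, (hp.odd_of_ne_two hp2).neg_one_pow]
  have hm2 : ((w : k) * (a₂ / a₁)) ^ (p ^ 2) = (w : k) * (a₂ / a₁) := by
    rw [hm0, ← pow_mul, mul_comm, pow_mul, sq p, pow_mul, ← ha12, ← ha21]
  -- the Frobenius square
  have hξ₂ : (φ * φ) ϖ / ϖ ∈ P :=
    mem_of_pow_eq_one he (ResB1.ratio_pow p (p ^ 2 - 1) hpe ϖ hϖ (φ * φ))
  have F : Frob2 rb p P ϖ f12 (φ * φ) ((φ * φ) ϖ / ϖ) w₂ :=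
    { hφ₂ := mul_mem hφD hφD
      hξ₂ := hξ₂
      hφ₂ϖ := (div_mul_cancel₀ _ hϖ0).symm
      hw₂ := hw₂
      hw₂k := hw₂0
      hN := frob_sq_res p P φ hφD hφres
      hf₂ := hφ₂12 }
  -- the pairs
  refine card_sup_le_of_pairs (LSS rb P p) (B1On (P.decompositionSubgroup ℚ) rb 1) ?_
  intro c₁ hc₁ c₂ hc₂
  obtain ⟨x₁, x₂, hne, hlev⟩ := exists_comb_lev_top S T f12 (a₂ / a₁) hτ12 hm1 hm2 F hc₁ hc₂
  refine ⟨x₁, x₂, hne, ?_⟩
  have hc' : x₁ • c₁ + x₂ • c₂ ∈ LSS rb P p :=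
    add_mem (Submodule.smul_mem _ x₁ hc₁) (Submodule.smul_mem _ x₂ hc₂)
  have h12 : ∀ σ : ↥(P.decompositionSubgroup ℚ), (σ : GQ) ∈ P.inertiaSubgroupIn ℚ →
      (σ : GQ) ϖ = ϖ → f12 ((x₁ • c₁ + x₂ • c₂) σ) = 0 := fun σ hσ hσϖ =>
    eq_zero_of_lev_top S hlev σ hσ hσϖ
  refine ResB1.mem_B1On_of_eq_zero_on_GF rb p hp2 h P hP hline (p ^ 2 - 1) he hpe ϖ hϖ _ hc'.1
    fun σ hσ hσϖ => ?_
  refine eq_zero_of_coord hQ _ (hc'.1.1 σ) (h_zero S T fh hτh hc' σ hσ hσϖ) (h12 σ hσ hσϖ) ?_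
  -- the `(1,0)` coordinate, by conjugation with the Frobenius element
  have hconj := gf_conj p P hP ϖ hϖ φ hφD σ hσ hσϖ
  have h1 := dcomp_conj S hc' f12 φ hφD σ hσ hσϖ
  rw [hφ12, dcomp_apply] at h1
  have h2 : f12 ((x₁ • c₁ + x₂ • c₂)
      ((⟨φ, hφD⟩ : ↥(P.decompositionSubgroup ℚ))⁻¹ * σ * ⟨φ, hφD⟩)) = 0 :=
    h12 _ hconj.1 hconj.2
  rw [h2] at h1
  have h3 : b₁ / b₂ ≠ 0 := div_ne_zero hb₁ hb₂
  exact (mul_eq_zero.mp h1.symm).resolve_left h3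

/-- **FLAT-SS-COUNT**, unconditional. -/
theorem ssCount_final [Finite k] : SSCount k :=
  ssCount SSStructProof.ssStruct_final SSStructProof.tameKum_final

end Fermat.Agent.TW.Flat.SS
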