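import Fermat.Agent.Lib.FinFlat.PBridge
import Fermat.Agent.S53.Defs
import Fermat.Agent.TW.Flat.Defs

/-!
# FLAT-BR: from the Prelude's flatness of a representation to a `P`-order

For a `GaloisRepAdic` over a *finite* local ring `A` (e.g. the dual numbers of a finite field), the
Prelude predicate `ρ.IsFlatAt p` yields a Hopf order over `ℤ_(p)` on the finite Galois module
`ρ.V` and hence, over every valuation subring `P` of `AlgebraicClosure ℚ` above `p`, a `P`-order
with a basis of functions equivariant for the whole Galois group.  The matrix forms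
(`repOfMat r hr`, module `Fin 2 → A`, action `v ↦ (r σ).mulVec v`) are the statements consumed by
the flat Taylor–Wiles local computation.
-/

set_option autoImplicit false

namespace Fermat.Agent.TW.Flat

open Fermat.Agent.S53 Fermat.Agent.Lib.FinFlat

/-- The Prelude's flatness gives a Hopf order over `ℤ_(p)` on the module of a representation over
a finite local ring. -/
theorem hasHopfOrder_of_isFlatAt_rep {A : Type} [CommRing A] [IsLocalRing A] [Finite A] (p : ℕ)
    (ρ : GaloisRepAdic A) (h : ρ.IsFlatAt p) :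
    HasHopfOrder p (V := ρ.V) (fun σ v => ρ.ρ σ v) := by
  have hfin : Finite (A ⧸ (⊥ : Ideal A)) :=
    Finite.of_surjective (Ideal.Quotient.mk (⊥ : Ideal A)) Ideal.Quotient.mk_surjective
  have h1 := h.2 ⊥ hfin
  have h2 : HasHopfOrder p (V := ρ.V ⧸ ((⊥ : Ideal A) • (⊤ : Submodule A ρ.V)))
      (fun σ x => ρ.levelAction ⊥ σ x) := hasHopfOrder_of_hopfAlgebra h1
  let e : ρ.V ≃+ (ρ.V ⧸ ((⊥ : Ideal A) • (⊤ : Submodule A ρ.V))) :=
    (Submodule.quotEquivOfEqBot ((⊥ : Ideal A) • (⊤ : Submodule A ρ.V))
      (Submodule.bot_smul _)).symm.toAddEquiv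
  exact h2.of_addEquiv e (fun σ v => rfl)

/-- The Prelude's flatness gives a `P`-order with a Galois-equivariant basis on the module of a
representation over a finite local ring, for every valuation subring `P` above `p`. -/
theorem exists_isPOrder_of_isFlatAt_rep {A : Type} [CommRing A] [IsLocalRing A] [Finite A] (p : ℕ)
    [Fact p.Prime] (P : ValuationSubring (AlgebraicClosure ℚ)) (hP : P.LiesOverPrime p)
    (ρ : GaloisRepAdic A) (h : ρ.IsFlatAt p) :
    ∃ B : Subalgebra P (ρ.V → AlgebraicClosure ℚ), IsPOrder P ⊤ (fun σ v => ρ.ρ σ v) B := by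
  have : Finite ρ.V := Module.finite_of_finite A
  obtain ⟨B₀, hB₀⟩ := hasHopfOrder_of_isFlatAt_rep p ρ h
  obtain ⟨B, hB, -⟩ := hB₀.exists_isPOrder P hP
  exact ⟨B, hB⟩

/-- The Prelude's flatness gives a Hopf order over `ℤ_(p)` on `Fin 2 → A` (matrix form). -/
theorem hasHopfOrder_of_isFlatAt {A : Type} [CommRing A] [IsLocalRing A] [Finite A] (p : ℕ)
    (r : S53.GQ →* Mat2 A) (hr : MatCont r) (h : (repOfMat r hr).IsFlatAt p) :
    HasHopfOrder p (V := Fin 2 → A) (fun σ v => (r σ).mulVec v) :=
  hasHopfOrder_of_isFlatAt_rep p (repOfMat r hr) h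

/-- **FLAT-BR.**  A flat (in the sense of the Prelude) matrix representation over a finite local
ring has a `P`-order with a Galois-equivariant basis, for every valuation subring `P` above `p`. -/
theorem exists_isPOrder_of_isFlatAt {A : Type} [CommRing A] [IsLocalRing A] [Finite A] (p : ℕ)
    [Fact p.Prime] (P : ValuationSubring (AlgebraicClosure ℚ)) (hP : P.LiesOverPrime p)
    (r : S53.GQ →* Mat2 A) (hr : MatCont r) (h : (repOfMat r hr).IsFlatAt p) :
    ∃ B : Subalgebra P ((Fin 2 → A) → AlgebraicClosure ℚ),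
      IsPOrder P ⊤ (fun σ v => (r σ).mulVec v) B :=
  exists_isPOrder_of_isFlatAt_rep p P hP (repOfMat r hr) h

/-- **FLAT-BR** for the dual numbers of a finite field. -/
theorem exists_isPOrder_of_isFlatAt_dualNumber {k : Type} [Field k] [Finite k] (p : ℕ)
    [Fact p.Prime] (P : ValuationSubring (AlgebraicClosure ℚ)) (hP : P.LiesOverPrime p)
    (r : S53.GQ →* Mat2 (DualNumber k)) (hr : MatCont r) (h : (repOfMat r hr).IsFlatAt p) :
    ∃ B : Subalgebra P ((Fin 2 → DualNumber k) → AlgebraicClosure ℚ),
      IsPOrder P ⊤ (fun σ v => (r σ).mulVec v) B := by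
  have : Finite (DualNumber k) := inferInstanceAs (Finite (k × k))
  exact exists_isPOrder_of_isFlatAt p P hP r hr h

/-- **FLAT-BR, in the form of the named statement `FlatBridge`** of `TW/Flat/Defs.lean`: a flat
first-order lift has a `P`-order with `GQ`-equivariant basis on `k[ε]²`. -/
theorem flatBridge (k : Type) [Field k] : FlatBridge k := by
  intro rb p _ P hP c hc
  obtain ⟨r, hr, hrc, -, hfl⟩ := hc
  have hres : Finite (IsLocalRing.ResidueField (DualNumber k)) := hfl.1
  have hk : Finite k :=
    Finite.of_injective ((IsLocalRing.residue (DualNumber k)).comp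
      (algebraMap k (DualNumber k))) (RingHom.injective _)
  obtain ⟨B, hB⟩ := exists_isPOrder_of_isFlatAt_dualNumber p P hP r hr hfl
  have hact : (fun (σ : S53.GQ) (v : Fin 2 → DualNumber k) => (r σ).mulVec v) = liftAct rb c := by
    funext σ v
    rw [hrc]
    rfl
  rw [hact] at hB
  exact ⟨B, hB⟩

end Fermat.Agent.TW.Flat
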