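/-
TW-FLAT (task 255): `exists_locFamily_fl` from the six named statements of `TW/Flat/Defs.lean`
(`FlatBridge`, `OrdContain`, `OrdUnique`, `OrdCount`, `SSContain`, `SSCount`).
-/
import Mathlib
import Fermat.Agent.TW.Flat.Defs
import Fermat.Agent.TW.Contain

set_option autoImplicit false

namespace Fermat.Agent.TW.Flat

open Fermat.Agent.S53 Fermat.Agent.TW Fermat.Agent.Lib.FinFlat

local notation "Qb" => AlgebraicClosure ℚ

variable {k : Type} [Field k]

theorem b1On_le_z1On (D : Subgroup GQ) {rb : GQ →* Mat2 k} (hrb : FiniteLevel rb) :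
    B1On D rb 1 ≤ Z1On D rb 1 := by
  rintro c ⟨X, hX, rfl⟩
  exact resOn_mem_Z1On D (B1_le_Z1_one hrb ⟨X, hX, rfl⟩)

theorem b1On_le_LOrd {rb : GQ →* Mat2 k} (hrb : FiniteLevel rb) (P : ValuationSubring Qb) (p : ℕ)
    (v0 : Fin 2 → k) : B1On (P.decompositionSubgroup ℚ) rb 1 ≤ LOrd rb P p v0 := by
  intro c hc
  refine ⟨b1On_le_z1On _ hrb hc, ?_⟩
  obtain ⟨X, hX, rfl⟩ := hc
  refine ⟨X, hX, ?_⟩
  have e : ((resOn (P.decompositionSubgroup ℚ)).comp (cob rb 1)) X -
      resOn (P.decompositionSubgroup ℚ) (cob rb 1 X) = 0 := sub_self _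
  rw [e]
  exact isFlOrd_zero P p v0

theorem isFlOrd_smul_line {P : ValuationSubring Qb} {p : ℕ} {v0 : Fin 2 → k} {a : k} (ha : a ≠ 0)
    {c' : ↥(P.decompositionSubgroup ℚ) → Mat2 k} (h : IsFlOrd P p v0 c') :
    IsFlOrd P p (a • v0) c' := by
  refine ⟨fun σ => ?_, fun σ hσ w => ?_, h.2.2⟩
  · obtain ⟨b, hb⟩ := h.1 σ
    exact ⟨b, by rw [Matrix.mulVec_smul, hb, smul_comm]⟩
  · obtain ⟨b, hb⟩ := h.2.1 σ hσ w
    exact ⟨b * a⁻¹, by rw [hb, smul_smul, mul_assoc, inv_mul_cancel₀ ha, mul_one]⟩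

theorem LOrd_smul_line (rb : GQ →* Mat2 k) (P : ValuationSubring Qb) (p : ℕ) (v0 : Fin 2 → k)
    {a : k} (ha : a ≠ 0) : LOrd rb P p v0 ≤ LOrd rb P p (a • v0) := by
  rintro c ⟨h1, X, hX, h2⟩
  exact ⟨h1, X, hX, isFlOrd_smul_line ha h2⟩

theorem locBound_B1On [Finite k] {rb : GQ →* Mat2 k} (hrb : FiniteLevel rb)
    (P : ValuationSubring Qb) : LocBound rb P 1 (B1On (P.decompositionSubgroup ℚ) rb 1) := by
  classical
  have hfin : Finite ↥(B1On (P.decompositionSubgroup ℚ) rb 1) := by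
    have : Finite (Mat2 k) := inferInstance
    have hs : (↑(B1On (P.decompositionSubgroup ℚ) rb 1) :
        Set (↥(P.decompositionSubgroup ℚ) → Mat2 k)).Finite := by
      have : (↑(B1On (P.decompositionSubgroup ℚ) rb 1) :
          Set (↥(P.decompositionSubgroup ℚ) → Mat2 k)) =
          ((resOn (P.decompositionSubgroup ℚ)).comp (cob rb 1)) '' (↑(sl2 k) : Set (Mat2 k)) := rfl
      rw [this]
      exact (Set.toFinite _).image _
    exact hs.to_subtype
  refine ⟨b1On_le_z1On _ hrb, le_rfl, hfin, ?_⟩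
  have h0 : 0 < Nat.card ↥(H0On (P.decompositionSubgroup ℚ) rb 1) := Nat.card_pos
  have hk : 0 < Nat.card k := Nat.card_pos
  calc Nat.card ↥(B1On (P.decompositionSubgroup ℚ) rb 1)
      = 1 * Nat.card ↥(B1On (P.decompositionSubgroup ℚ) rb 1) := (one_mul _).symm
    _ ≤ (Nat.card ↥(H0On (P.decompositionSubgroup ℚ) rb 1) * Nat.card k ^ 1) *
        Nat.card ↥(B1On (P.decompositionSubgroup ℚ) rb 1) :=
      Nat.mul_le_mul_right _ (Nat.one_le_iff_ne_zero.mpr (by positivity))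

/-- **TW-FLAT from the six named statements.** -/
theorem exists_locFamily_fl_of [Finite k] (hbr : FlatBridge k) (hoc : OrdContain k)
    (hou : OrdUnique k) (hon : OrdCount k) (hsc : SSContain k) (hsn : SSCount k)
    (rb : GQ →* Mat2 k) (p : ℕ) [Fact p.Prime] (hp2 : p ≠ 2) (h : ResidualHyp rb p) :
    ∃ Lp : LocFamily k,
      (∀ P : ValuationSubring (AlgebraicClosure ℚ), P.LiesOverPrime p → LocBound rb P 1 (Lp P)) ∧
      ∀ (P : ValuationSubring (AlgebraicClosure ℚ)), P.LiesOverPrime p →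
      ∀ (c : GQ → Mat2 k) (r : GQ →* Mat2 (DualNumber k)) (hr : MatCont r),
        (∀ σ, r σ = liftMat rb c σ) →
        (repOfMat r hr).DetIsCyclotomic p → (repOfMat r hr).IsFlatAt p →
          resOn (P.decompositionSubgroup ℚ) c ∈ Lp P := by
  classical
  have hrb : FiniteLevel rb := h.finiteLevel'
  refine ⟨Lfl rb p, fun P hP => ?_, fun P hP c r hr hrc hdet hfl => ?_⟩
  · unfold Lfl
    by_cases hline : HasLine rb P
    · rw [if_pos hline]
      by_cases h' : ∃ v0 : Fin 2 → k, OrdShape rb P v0 ∧ PeuRam rb P p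
      · rw [dif_pos h']
        obtain ⟨hf, hc⟩ := hon rb p hp2 h P hP h'.choose h'.choose_spec.1 h'.choose_spec.2
        exact ⟨fun c hc => hc.1, b1On_le_LOrd hrb P p _, hf, hc⟩
      · rw [dif_neg h']
        exact locBound_B1On hrb P
    · rw [if_neg hline]
      obtain ⟨hf, hc⟩ := hsn rb p hp2 h P hP hline
      refine ⟨sup_le (fun c hc => hc.1) (b1On_le_z1On _ hrb), le_sup_right, hf, hc.trans ?_⟩
      have h0 : 0 < Nat.card ↥(H0On (P.decompositionSubgroup ℚ) rb 1) := Nat.card_pos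
      rw [pow_one]
      exact Nat.mul_le_mul_right _ (Nat.le_mul_of_pos_left _ h0)
  · have hZ : c ∈ Z1 rb 1 := Contain.mem_Z1_of_lift rb p h.charP c r hr hrc hdet
    have hO : FlatOrder rb P c := hbr rb p P hP c ⟨r, hr, hrc, hdet, hfl⟩
    unfold Lfl
    by_cases hline : HasLine rb P
    · rw [if_pos hline]
      obtain ⟨v0, hv0, hpeu, hmem⟩ := hoc rb p hp2 h P hP hline c hZ hO
      have h' : ∃ v0 : Fin 2 → k, OrdShape rb P v0 ∧ PeuRam rb P p := ⟨v0, hv0, hpeu⟩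
      rw [dif_pos h']
      obtain ⟨a, ha, hav⟩ := hou rb p hp2 h P hP v0 h'.choose hv0 h'.choose_spec.1
      rw [hav]
      exact LOrd_smul_line rb P p v0 ha hmem
    · rw [if_neg hline]
      exact Submodule.mem_sup_left
        ⟨resOn_mem_Z1On _ hZ, hsc rb p hp2 h P hP hline c hZ hO⟩

end Fermat.Agent.TW.Flat
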