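/-
TW-FLAT, row FLAT-SS-CONTAIN (339): `ssContain : SSContain k` for a finite field `k` — in the
irreducible (supersingular) case the cocycle of a flat first-order lift has Kummer level
`≥ p² − 2` over `Qb^I(ϖ)`, `ϖ^(p²−1) = −p`.

Everything is proved in `TW/Flat/SSC/*`; this file plugs the producers of the local toolkit
(`TW/Flat/Local/*`), the tame structure (`TW/Flat/SSStructFinal`), the level calculus
(`SSC/Levels`, `SSC/TwistDiff`), the Galois theory of `c|G_F` (`SSC/Group`) and Fontaine's twist
(`SSC/Core`) into the assembly `SSC.ssContain_of`.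
-/
import Mathlib
import Fermat.Agent.TW.Flat.SSC.Assembly
import Fermat.Agent.TW.Flat.SSC.Core
import Fermat.Agent.TW.Flat.SSC.Levels
import Fermat.Agent.TW.Flat.SSC.TwistDiff
import Fermat.Agent.TW.Flat.SSC.Group
import Fermat.Agent.TW.Flat.SSStructFinal
import Fermat.Agent.TW.Flat.Local.MonoFinal
import Fermat.Agent.TW.Flat.Local.CloseRoot

set_option autoImplicit false

namespace Fermat.Agent.TW.Flat

open Fermat.Agent.TW.Flat.SSC

/-- Fontaine's twist, unconditional (finite `k`). -/
theorem twistCore {k : Type} [Field k] [Finite k] : TwistCore k :=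
  twistCore_of Loc.Basic.arch Loc.Basic.decompMem Loc.Tame.fStruct Loc.Tame.fIndep
    Loc.MonoPf.mono_final
    (Group.hData SSStructProof.ssStruct_final SSStructProof.tameKum_final)

/-- **FLAT-SS-CONTAIN.** -/
theorem ssContain {k : Type} [Field k] [Finite k] : SSContain k :=
  ssContain_of Loc.Tame.fVal Loc.Tame.fStruct Loc.Close.closeRoot Loc.Basic.decompMem
    Loc.Basic.inertiaRes Levels.k3 TwDiff.twistDiff Levels.raise
    (Group.h90w SSStructProof.ssStruct_final SSStructProof.tameKum_final)
    (Group.tauConj SSStructProof.ssStruct_final SSStructProof.tameKum_final) twistCore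

end Fermat.Agent.TW.Flat
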