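/-
TW-FLAT, step (d) of FLAT-ORD-COUNT (task 322): the unit map `λ`.

`P` is a valuation subring of `Qb` over `p`, `I` its inertia group.  An `I`-fixed unit `u` of `P`
is uniquely `u = ζ (1 + p a)` with `ζ` a root of unity of order prime to `p` and `a ∈ P`
(Teichmüller decomposition, from the toolkit statements `Loc.Teich` and `Loc.Unr`);
`lam p P u` is the class of `a` in the residue field of `P`.

* `lam_eq` : the characterisation `lam p P (ζ * (1 + p * a)) = residue a`;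
* `lam_mul` : `λ (u u') = λ u + λ u'` on `I`-fixed units;
* `lam_pow_p` : `λ (w ^ p) = 0`;
* `exists_pow_eq_of_lam_eq_zero` : `λ u = 0` implies that `u` is a `p`-th power of an `I`-fixed
  unit (`Loc.CloseRoot` with `c = p`, `p` odd);
* `lam_frobenius` : `λ (φ u) = (λ u) ^ p` for a Frobenius element `φ`;
* `exists_unitLam` : the bundled statement.
-/
import Mathlib
import Fermat.Agent.TW.Flat.Interfaces
import Fermat.Agent.Lib.Tame.RootsOfUnity
import Fermat.Agent.PT.Levels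

set_option autoImplicit false

namespace Fermat.Agent.TW.Flat.UnitLam

open Fermat.Agent.S53 Fermat.Agent.TW Fermat.Agent.TW.Flat IsLocalRing
open scoped Pointwise

local notation "Qb" => AlgebraicClosure ℚ

variable {P : ValuationSubring Qb}

/-! ### Units of `P` -/

theorem isPUnit_val_eq_one {z : Qb} (hz : IsPUnit P z) : P.valuation z = 1 := by
  obtain ⟨hz0, hzP, hzP'⟩ := hz
  have h1 : P.valuation z ≤ 1 := (P.valuation_le_one_iff z).2 hzP
  have h2 : P.valuation z⁻¹ ≤ 1 := (P.valuation_le_one_iff _).2 hzP'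
  rw [map_inv₀] at h2
  have h3 : P.valuation z ≠ 0 := (map_ne_zero _).2 hz0
  have h4 : 1 ≤ P.valuation z := by
    rwa [inv_le_one₀ (zero_lt_iff.2 h3)] at h2
  exact le_antisymm h1 h4

theorem isPUnit_of_val_eq_one {z : Qb} (hz : P.valuation z = 1) : IsPUnit P z := by
  have hz0 : z ≠ 0 := by
    rintro rfl
    rw [map_zero] at hz
    exact zero_ne_one hz
  refine ⟨hz0, (P.valuation_le_one_iff z).1 hz.le, (P.valuation_le_one_iff _).1 ?_⟩
  rw [map_inv₀, hz, inv_one]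

theorem isPUnit_inv {z : Qb} (hz : IsPUnit P z) : IsPUnit P z⁻¹ :=
  ⟨inv_ne_zero hz.1, hz.2.2, by rw [inv_inv]; exact hz.2.1⟩

theorem isPUnit_pow {z : Qb} (hz : IsPUnit P z) (n : ℕ) : IsPUnit P (z ^ n) :=
  isPUnit_of_val_eq_one (by rw [map_pow, isPUnit_val_eq_one hz, one_pow])

theorem isPUnit_of_pow_eq_one {ζ : Qb} {m : ℕ} (hm : 0 < m) (hζ : ζ ^ m = 1) : IsPUnit P ζ :=
  isPUnit_of_val_eq_one (Fermat.Agent.Lib.Tame.val_eq_one_of_pow_eq_one hm.ne' hζ)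

/-- `u` is a unit of `P` fixed by the inertia group. -/
def IsNrUnit (P : ValuationSubring Qb) (u : Qb) : Prop :=
  IsPUnit P u ∧ ∀ σ ∈ P.inertiaSubgroupIn ℚ, σ u = u

theorem IsNrUnit.mul {u u' : Qb} (h : IsNrUnit P u) (h' : IsNrUnit P u') :
    IsNrUnit P (u * u') :=
  ⟨h.1.mul h'.1, fun σ hσ => by rw [map_mul, h.2 σ hσ, h'.2 σ hσ]⟩

theorem IsNrUnit.inv {u : Qb} (h : IsNrUnit P u) : IsNrUnit P u⁻¹ :=
  ⟨isPUnit_inv h.1, fun σ hσ => by rw [map_inv₀, h.2 σ hσ]⟩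

theorem IsNrUnit.pow {u : Qb} (h : IsNrUnit P u) (n : ℕ) : IsNrUnit P (u ^ n) :=
  ⟨isPUnit_pow h.1 n, fun σ hσ => by rw [map_pow, h.2 σ hσ]⟩

theorem isNrUnit_one : IsNrUnit P 1 := ⟨isPUnit_one P, fun σ _ => map_one σ⟩

variable {p : ℕ} [Fact p.Prime]

/-- Roots of unity of order prime to `p` are inertia-fixed units. -/
theorem isNrUnit_of_pow_eq_one (hP : P.LiesOverPrime p) {ζ : Qb} {m : ℕ} (hm : 0 < m)
    (hpm : ¬ p ∣ m) (hζ : ζ ^ m = 1) : IsNrUnit P ζ :=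
  ⟨isPUnit_of_pow_eq_one hm hζ, fun _ hσ =>
    Fermat.Agent.Lib.Tame.inertia_apply_eq_of_pow_eq_one (Fact.out : p.Prime) hP hpm hζ hσ⟩

theorem natCast_mem_nonunits (hP : P.LiesOverPrime p) : (p : Qb) ∈ P.nonunits := hP

theorem natCast_mem (hP : P.LiesOverPrime p) : (p : Qb) ∈ P :=
  (P.valuation_le_one_iff _).1 (P.mem_nonunits_iff.1 hP).le

theorem natCast_ne_zero' : (p : Qb) ≠ 0 :=
  Nat.cast_ne_zero.2 (Fact.out : p.Prime).ne_zero

/-- An inertia-fixed element of the maximal ideal is divisible by `p`. -/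
theorem div_p_mem (hUnr : Loc.Unr) (hP : P.LiesOverPrime p) {x : Qb} (hx : x ∈ P.nonunits)
    (hfix : ∀ σ ∈ P.inertiaSubgroupIn ℚ, σ x = x) : x / (p : Qb) ∈ P := by
  by_cases hx0 : x = 0
  · rw [hx0, zero_div]; exact P.zero_mem
  obtain ⟨n, hn⟩ := hUnr p P hP x hx0 hfix
  have hvx : P.valuation x < 1 := P.mem_nonunits_iff.1 hx
  have hvp : P.valuation (p : Qb) < 1 := P.mem_nonunits_iff.1 hP
  have hpP : (p : Qb) ∈ P := natCast_mem hP
  have hp0 : (p : Qb) ≠ 0 := natCast_ne_zero'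
  obtain ⟨m, rfl | rfl⟩ := Int.eq_nat_or_neg n
  · -- `n = m ≥ 0`
    rcases Nat.eq_zero_or_pos m with rfl | hm
    · exfalso
      have h1 := isPUnit_val_eq_one hn
      simp only [Nat.cast_zero, zpow_zero, div_one] at h1
      rw [h1] at hvx
      exact lt_irrefl _ hvx
    · obtain ⟨k, rfl⟩ : ∃ k, m = k + 1 := ⟨m - 1, by omega⟩
      have e : x / (p : Qb) = x / (p : Qb) ^ ((k + 1 : ℕ) : ℤ) * (p : Qb) ^ k := by
        rw [zpow_natCast, pow_succ]
        field_simp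
      rw [e]
      exact P.mul_mem _ _ hn.2.1 (P.pow_mem hpP k)
  · -- `n = -m ≤ 0`
    exfalso
    have h1 := isPUnit_val_eq_one hn
    have e : x / (p : Qb) ^ (-(m : ℤ)) = x * (p : Qb) ^ m := by
      rw [zpow_neg, zpow_natCast, div_inv_eq_mul]
    rw [e, map_mul, map_pow] at h1
    have h2 : P.valuation x * P.valuation (p : Qb) ^ m < 1 := by
      calc P.valuation x * P.valuation (p : Qb) ^ m ≤ P.valuation x * 1 := by
            gcongr
            exact pow_le_one₀ zero_le hvp.le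
        _ = P.valuation x := mul_one _
        _ < 1 := hvx
    rw [h1] at h2
    exact lt_irrefl _ h2

/-! ### The Teichmüller decomposition -/

/-- Existence: an inertia-fixed unit is `ζ (1 + p a)`. -/
theorem exists_teich (hUnr : Loc.Unr) (hTeich : Loc.Teich) (hP : P.LiesOverPrime p) {u : Qb}
    (hu : IsNrUnit P u) :
    ∃ (ζ : Qb) (m : ℕ) (a : Qb), 0 < m ∧ ¬ p ∣ m ∧ ζ ^ m = 1 ∧ a ∈ P ∧
      (∀ σ ∈ P.inertiaSubgroupIn ℚ, σ a = a) ∧ u = ζ * (1 + p * a) := by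
  obtain ⟨ζ, m, hm, hpm, hζ, huζ⟩ := hTeich p P hP u hu.1
  have hζN : IsNrUnit P ζ := isNrUnit_of_pow_eq_one hP hm hpm hζ
  have hζ0 : ζ ≠ 0 := hζN.1.1
  have hp0 : (p : Qb) ≠ 0 := natCast_ne_zero'
  set x : Qb := u / ζ - 1 with hx
  have hx1 : x = (u - ζ) * ζ⁻¹ := by rw [hx]; field_simp
  have hxm : x ∈ P.nonunits := by
    rw [hx1, P.mem_nonunits_iff, map_mul]
    have h1 : P.valuation (u - ζ) < 1 := P.mem_nonunits_iff.1 huζ
    have h2 : P.valuation ζ⁻¹ = 1 := isPUnit_val_eq_one (isPUnit_inv hζN.1)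
    rw [h2, mul_one]
    exact h1
  have hxfix : ∀ σ ∈ P.inertiaSubgroupIn ℚ, σ x = x := fun σ hσ => by
    rw [hx, map_sub, map_div₀, hu.2 σ hσ, hζN.2 σ hσ, map_one]
  refine ⟨ζ, m, x / p, hm, hpm, hζ, div_p_mem hUnr hP hxm hxfix, fun σ hσ => ?_, ?_⟩
  · rw [map_div₀, hxfix σ hσ, map_natCast]
  · rw [hx]; field_simp; ring

/-- Uniqueness of the Teichmüller decomposition. -/
theorem teich_unique (hP : P.LiesOverPrime p) {ζ ζ' a a' : Qb} {m m' : ℕ} (hm : 0 < m)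
    (hpm : ¬ p ∣ m) (hζ : ζ ^ m = 1) (hm' : 0 < m') (hpm' : ¬ p ∣ m') (hζ' : ζ' ^ m' = 1)
    (ha : a ∈ P) (ha' : a' ∈ P) (h : ζ * (1 + p * a) = ζ' * (1 + p * a')) :
    ζ = ζ' ∧ a = a' := by
  have hp : p.Prime := Fact.out
  have hp0 : (p : Qb) ≠ 0 := natCast_ne_zero'
  have hζU : IsPUnit P ζ := isPUnit_of_pow_eq_one hm hζ
  have hζU' : IsPUnit P ζ' := isPUnit_of_pow_eq_one hm' hζ'
  have hvp : P.valuation (p : Qb) < 1 := P.mem_nonunits_iff.1 hP
  have e1 : ζ / ζ' - 1 = (p : Qb) * ((ζ' * a' - ζ * a) * ζ'⁻¹) := by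
    have hζ'0 := hζU'.1
    have h' : ζ = ζ' * (1 + p * a') - ζ * (p * a) := by rw [← h]; ring
    field_simp
    linear_combination h
  have hnear : Fermat.Agent.Lib.Tame.Near1 P.valuation (ζ / ζ') := by
    show P.valuation (ζ / ζ' - 1) < 1
    rw [e1, map_mul]
    have h2 : P.valuation ((ζ' * a' - ζ * a) * ζ'⁻¹) ≤ 1 := by
      rw [P.valuation_le_one_iff]
      exact P.mul_mem _ _ (sub_mem (P.mul_mem _ _ hζU'.2.1 ha') (P.mul_mem _ _ hζU.2.1 ha))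
        hζU'.2.2
    calc P.valuation (p : Qb) * P.valuation ((ζ' * a' - ζ * a) * ζ'⁻¹)
        ≤ P.valuation (p : Qb) * 1 := by gcongr
      _ = P.valuation (p : Qb) := mul_one _
      _ < 1 := hvp
  have hpow : (ζ / ζ') ^ (m * m') = 1 := by
    rw [div_pow, pow_mul, hζ, one_pow, mul_comm m m', pow_mul, hζ', one_pow, div_one]
  have hpmm : ¬ p ∣ m * m' := fun hd => (hp.dvd_mul.1 hd).elim hpm hpm'
  have hone := Fermat.Agent.Lib.Tame.eq_one_of_near1_of_pow_eq_one P.valuation hnear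
    (Fermat.Agent.Lib.Tame.val_natCast_eq_one hp hP hpmm) hpow
  have hζζ' : ζ = ζ' := (div_eq_one_iff_eq hζU'.1).1 hone
  refine ⟨hζζ', ?_⟩
  rw [hζζ'] at h
  have h3 := mul_left_cancel₀ hζU'.1 h
  have h4 : (p : Qb) * a = p * a' := add_left_cancel h3
  exact mul_left_cancel₀ hp0 h4

/-! ### The map `λ` -/

open Classical in
/-- The unit map `λ`: the class of `a` in the residue field, for `u = ζ (1 + p a)`; `0` if `u`
has no such decomposition. -/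
noncomputable def lam (p : ℕ) (P : ValuationSubring Qb) (u : Qb) : ResidueField P :=
  if h : ∃ a : Qb, a ∈ P ∧ ∃ (ζ : Qb) (m : ℕ), 0 < m ∧ ¬ p ∣ m ∧ ζ ^ m = 1 ∧
      u = ζ * (1 + p * a)
  then residue P ⟨h.choose, h.choose_spec.1⟩ else 0

/-- The characterisation of `λ`. -/
theorem lam_eq (hP : P.LiesOverPrime p) {ζ a : Qb} {m : ℕ} (hm : 0 < m) (hpm : ¬ p ∣ m)
    (hζ : ζ ^ m = 1) (ha : a ∈ P) :
    lam p P (ζ * (1 + p * a)) = residue P ⟨a, ha⟩ := by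
  have h : ∃ a' : Qb, a' ∈ P ∧ ∃ (ζ' : Qb) (m' : ℕ), 0 < m' ∧ ¬ p ∣ m' ∧ ζ' ^ m' = 1 ∧
      ζ * (1 + p * a) = ζ' * (1 + p * a') := ⟨a, ha, ζ, m, hm, hpm, hζ, rfl⟩
  rw [lam, dif_pos h]
  obtain ⟨ζ', m', hm', hpm', hζ', heq⟩ := h.choose_spec.2
  have := (teich_unique hP hm hpm hζ hm' hpm' hζ' ha h.choose_spec.1 heq).2
  congr 1
  exact Subtype.ext this.symm

theorem residue_natCast_mul (hP : P.LiesOverPrime p) {b : Qb} (hb : b ∈ P) :
    residue P ⟨(p : Qb) * b, P.mul_mem _ _ (natCast_mem hP) hb⟩ = 0 := by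
  rw [residue_eq_zero_iff, ← ValuationSubring.coe_mem_nonunits_iff]
  show (p : Qb) * b ∈ P.nonunits
  rw [P.mem_nonunits_iff, map_mul]
  calc P.valuation (p : Qb) * P.valuation b ≤ P.valuation (p : Qb) * 1 := by
        gcongr
        exact (P.valuation_le_one_iff b).2 hb
    _ = P.valuation (p : Qb) := mul_one _
    _ < 1 := P.mem_nonunits_iff.1 hP

/-- `λ` is additive on inertia-fixed units. -/
theorem lam_mul (hUnr : Loc.Unr) (hTeich : Loc.Teich) (hP : P.LiesOverPrime p) {u u' : Qb}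
    (hu : IsNrUnit P u) (hu' : IsNrUnit P u') :
    lam p P (u * u') = lam p P u + lam p P u' := by
  have hp : p.Prime := Fact.out
  obtain ⟨ζ, m, a, hm, hpm, hζ, ha, -, rfl⟩ := exists_teich hUnr hTeich hP hu
  obtain ⟨ζ', m', a', hm', hpm', hζ', ha', -, rfl⟩ := exists_teich hUnr hTeich hP hu'
  have hpP : (p : Qb) ∈ P := natCast_mem hP
  have haa : a * a' ∈ P := P.mul_mem _ _ ha ha'
  have hsum : a + a' + p * (a * a') ∈ P :=
    P.add_mem _ _ (P.add_mem _ _ ha ha') (P.mul_mem _ _ hpP haa)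
  have e : ζ * (1 + p * a) * (ζ' * (1 + p * a')) =
      (ζ * ζ') * (1 + p * (a + a' + p * (a * a'))) := by ring
  have hpow : (ζ * ζ') ^ (m * m') = 1 := by
    rw [mul_pow, pow_mul, hζ, one_pow, mul_comm m m', pow_mul, hζ', one_pow, one_mul]
  have hpmm : ¬ p ∣ m * m' := fun hd => (hp.dvd_mul.1 hd).elim hpm hpm'
  rw [e, lam_eq hP (Nat.mul_pos hm hm') hpmm hpow hsum, lam_eq hP hm hpm hζ ha,
    lam_eq hP hm' hpm' hζ' ha']
  have e2 : (⟨a + a' + p * (a * a'), hsum⟩ : P) =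
      ⟨a, ha⟩ + ⟨a', ha'⟩ + ⟨(p : Qb) * (a * a'), P.mul_mem _ _ hpP haa⟩ := rfl
  rw [e2, map_add, map_add, residue_natCast_mul hP haa, add_zero]

/-- `(1 + p b)^n = 1 + n p b + p² c` with `c ∈ P`. -/
theorem exists_one_add_pow (hP : P.LiesOverPrime p) {b : Qb} (hb : b ∈ P) (n : ℕ) :
    ∃ c ∈ P, (1 + (p : Qb) * b) ^ n = 1 + n * (p * b) + p * (p * c) := by
  have hpP : (p : Qb) ∈ P := natCast_mem hP
  induction n with
  | zero => exact ⟨0, P.zero_mem, by simp⟩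
  | succ n ih =>
    obtain ⟨c, hc, hc'⟩ := ih
    refine ⟨c + n * (b * b) + p * (b * c), ?_, ?_⟩
    · have hn : (n : Qb) ∈ P := by
        have : ((n : P) : Qb) = (n : Qb) := by push_cast; rfl
        rw [← this]; exact (n : P).2
      exact P.add_mem _ _ (P.add_mem _ _ hc (P.mul_mem _ _ hn (P.mul_mem _ _ hb hb)))
        (P.mul_mem _ _ hpP (P.mul_mem _ _ hb hc))
    · rw [pow_succ, hc']
      push_cast
      ring

/-- `λ` kills `p`-th powers. -/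
theorem lam_pow_p (hUnr : Loc.Unr) (hTeich : Loc.Teich) (hP : P.LiesOverPrime p) {w : Qb}
    (hw : IsNrUnit P w) : lam p P (w ^ p) = 0 := by
  obtain ⟨ζ, m, b, hm, hpm, hζ, hb, -, rfl⟩ := exists_teich hUnr hTeich hP hw
  obtain ⟨c, hc, hc'⟩ := exists_one_add_pow hP hb p
  have hbc : b + c ∈ P := P.add_mem _ _ hb hc
  have hpP : (p : Qb) ∈ P := natCast_mem hP
  have e : (ζ * (1 + p * b)) ^ p = ζ ^ p * (1 + p * (p * (b + c))) := by
    rw [mul_pow, hc']; ring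
  have hpow : (ζ ^ p) ^ m = 1 := by rw [← pow_mul, mul_comm, pow_mul, hζ, one_pow]
  rw [e, lam_eq hP hm hpm hpow (P.mul_mem _ _ hpP hbc)]
  exact residue_natCast_mul hP hbc

/-- The inertia group is contained in the decomposition group. -/
theorem mem_decomposition_of_mem_inertia {σ : GQ} (hσ : σ ∈ P.inertiaSubgroupIn ℚ) :
    σ ∈ P.decompositionSubgroup ℚ :=
  ((Fermat.Agent.PT.Levels.mem_inertiaSubgroupIn_iff P σ).1 hσ).1

/-- If `λ u = 0` then `u` is the `p`-th power of an inertia-fixed unit (`p` odd). -/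
theorem exists_pow_eq_of_lam_eq_zero (hUnr : Loc.Unr) (hTeich : Loc.Teich)
    (hClose : Loc.CloseRoot) (hp2 : p ≠ 2) (hP : P.LiesOverPrime p) {u : Qb}
    (hu : IsNrUnit P u) (h0 : lam p P u = 0) : ∃ y : Qb, IsNrUnit P y ∧ y ^ p = u := by
  have hp : p.Prime := Fact.out
  have hp0 : (p : Qb) ≠ 0 := natCast_ne_zero'
  have hpP : (p : Qb) ∈ P := natCast_mem hP
  have hvp : P.valuation (p : Qb) < 1 := P.mem_nonunits_iff.1 hP
  obtain ⟨ζ, m, a, hm, hpm, hζ, ha, hafix, rfl⟩ := exists_teich hUnr hTeich hP hu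
  rw [lam_eq hP hm hpm hζ ha, residue_eq_zero_iff, ← ValuationSubring.coe_mem_nonunits_iff] at h0
  have ham : a ∈ P.nonunits := h0
  -- `a = p a₁`
  have ha1 : a / p ∈ P := div_p_mem hUnr hP ham hafix
  set a₁ : Qb := a / p with ha₁
  have haa₁ : a = p * a₁ := by rw [ha₁]; field_simp
  have hζN : IsNrUnit P ζ := isNrUnit_of_pow_eq_one hP hm hpm hζ
  set u₀ : Qb := 1 + p * a with hu₀
  have hu₀N : IsNrUnit P u₀ := by
    have : u₀ = ζ * (1 + p * a) * ζ⁻¹ := by rw [hu₀]; field_simp [hζN.1.1]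
    rw [this]
    exact hu.mul hζN.inv
  -- a `p`-th root of `u₀`
  obtain ⟨z, hz⟩ := IsAlgClosed.exists_pow_nat_eq u₀ hp.pos
  have hp3 : 3 ≤ p := by
    have := hp.two_le
    omega
  obtain ⟨ζ', hζ', ⟨t', ht', hzt⟩, hfix⟩ := hClose p P hP (p : Qb) u₀ z hpP
    ⟨(p : Qb) ^ (p - 2), by
      rw [P.mem_nonunits_iff, map_pow]
      exact pow_lt_one₀ zero_le hvp (by omega), by
      rw [← pow_succ']
      congr 1
      omega⟩
    ⟨a₁, ha1, by rw [hu₀, haa₁]; ring⟩ hz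
  set y₀ : Qb := ζ' * z with hy₀
  have hy₀p : y₀ ^ p = u₀ := by rw [hy₀, mul_pow, hζ', hz, one_mul]
  have hy₀N : IsNrUnit P y₀ := by
    refine ⟨isPUnit_of_val_eq_one ?_, fun σ hσ => ?_⟩
    · have h1 : P.valuation y₀ ^ p = 1 ^ p := by
        rw [← map_pow, hy₀p, isPUnit_val_eq_one hu₀N.1, one_pow]
      exact Fermat.Agent.Lib.Tame.pow_inj_of_ne_zero hp.ne_zero h1
    · exact hfix σ (mem_decomposition_of_mem_inertia hσ) (hu₀N.2 σ hσ)
  -- a `p`-th root of `ζ`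
  obtain ⟨ζ₁, hζ₁m, hζ₁p⟩ : ∃ ζ₁ : Qb, ζ₁ ^ m = 1 ∧ ζ₁ ^ p = ζ := by
    rcases Nat.lt_or_ge 1 m with hm1 | hm1
    · have hcop : Nat.Coprime p m := (Nat.Prime.coprime_iff_not_dvd hp).2 hpm
      obtain ⟨e, -, he⟩ := Nat.exists_mul_mod_eq_one_of_coprime hcop hm1
      refine ⟨ζ ^ e, by rw [← pow_mul, mul_comm, pow_mul, hζ, one_pow], ?_⟩
      rw [← pow_mul, mul_comm, pow_eq_pow_mod _ hζ, he, pow_one]
    · have hm1' : m = 1 := by omega
      subst hm1'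
      rw [pow_one] at hζ
      exact ⟨1, one_pow _, by rw [one_pow, hζ]⟩
  have hζ₁N : IsNrUnit P ζ₁ := isNrUnit_of_pow_eq_one hP hm hpm hζ₁m
  exact ⟨ζ₁ * y₀, hζ₁N.mul hy₀N, by rw [mul_pow, hζ₁p, hy₀p]⟩

/-- A Frobenius element maps inertia-fixed units to inertia-fixed units. -/
theorem isNrUnit_apply {φ : GQ} (hφ : φ ∈ P.decompositionSubgroup ℚ) {u : Qb}
    (hu : IsNrUnit P u) : IsNrUnit P (φ u) := by
  refine ⟨⟨(map_ne_zero φ).2 hu.1.1,
    Fermat.Agent.Lib.Tame.apply_mem_of_mem_decomposition hφ hu.1.2.1, ?_⟩, fun σ hσ => ?_⟩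
  · rw [← map_inv₀]
    exact Fermat.Agent.Lib.Tame.apply_mem_of_mem_decomposition hφ hu.1.2.2
  · have hφ' : φ⁻¹ • P = P := (P.decompositionSubgroup ℚ).inv_mem hφ
    have h1 := Fermat.Agent.PT.Levels.conj_mem_inertiaSubgroupIn P φ⁻¹ σ hσ
    rw [hφ', inv_inv] at h1
    have h2 := hu.2 _ h1
    have h3 : σ (φ u) = φ ((φ⁻¹ * σ * φ) u) := by
      simp only [AlgEquiv.mul_apply]
      have : φ (φ⁻¹ (σ (φ u))) = σ (φ u) := by
        rw [← AlgEquiv.mul_apply, mul_inv_cancel, AlgEquiv.one_apply]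
      rw [this]
    rw [h3, h2]

/-- Frobenius compatibility: `λ (φ u) = (λ u) ^ p`. -/
theorem lam_frobenius (hUnr : Loc.Unr) (hTeich : Loc.Teich) (hP : P.LiesOverPrime p)
    {φ : GQ} (hφ : P.IsFrobeniusAt φ p) {u : Qb} (hu : IsNrUnit P u) :
    lam p P (φ u) = lam p P u ^ p := by
  have hφD := hφ.mem_decompositionSubgroup
  obtain ⟨ζ, m, a, hm, hpm, hζ, ha, -, rfl⟩ := exists_teich hUnr hTeich hP hu
  have haφ : φ a ∈ P := Fermat.Agent.Lib.Tame.apply_mem_of_mem_decomposition hφD ha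
  have e : φ (ζ * (1 + p * a)) = φ ζ * (1 + p * φ a) := by
    rw [map_mul, map_add, map_one, map_mul, map_natCast]
  have hpow : (φ ζ) ^ m = 1 := by rw [← map_pow, hζ, map_one]
  rw [e, lam_eq hP hm hpm hpow haφ, lam_eq hP hm hpm hζ ha]
  have hfr := hφ.smul_residue_eq (residue P ⟨a, ha⟩)
  have e1 : residue P ⟨φ a, haφ⟩
      = (⟨φ, hφD⟩ : P.decompositionSubgroup ℚ) • residue P ⟨a, ha⟩ := rfl
  rw [e1, hfr]

/-- **The unit map `λ`, bundled.** -/
theorem exists_unitLam (hUnr : Loc.Unr) (hTeich : Loc.Teich) (hClose : Loc.CloseRoot)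
    (p : ℕ) [Fact p.Prime] (hp2 : p ≠ 2) (P : ValuationSubring Qb) (hP : P.LiesOverPrime p) :
    ∃ lam : Qb → ResidueField P,
      (∀ u u', IsNrUnit P u → IsNrUnit P u' → lam (u * u') = lam u + lam u') ∧
      (∀ w, IsNrUnit P w → lam (w ^ p) = 0) ∧
      (∀ u, IsNrUnit P u → lam u = 0 → ∃ y, IsNrUnit P y ∧ y ^ p = u) ∧
      (∀ φ : GQ, P.IsFrobeniusAt φ p → ∀ u, IsNrUnit P u →
        IsNrUnit P (φ u) ∧ lam (φ u) = lam u ^ p) :=
  ⟨UnitLam.lam p P, fun _ _ hu hu' => lam_mul hUnr hTeich hP hu hu',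
    fun _ hw => lam_pow_p hUnr hTeich hP hw,
    fun _ hu h0 => exists_pow_eq_of_lam_eq_zero hUnr hTeich hClose hp2 hP hu h0,
    fun _ hφ _ hu => ⟨isNrUnit_apply hφ.mem_decompositionSubgroup hu,
      lam_frobenius hUnr hTeich hP hφ hu⟩⟩

end Fermat.Agent.TW.Flat.UnitLam
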