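import Mathlib
import Fermat.Agent.TW.Flat.OrdCount.Count

/-!
# FLAT-ORD-COUNT (task 322)

`ordCount : OrdCount k` — in the reducible case, the ordinary flat condition `LOrd rb P p v0` is
finite with `#LOrd ≤ #H⁰(D, ad⁰) · #k · #B¹(D, ad⁰) = #k⁴`.  Unconditional.

Route (files `OrdCount/Cocycle.lean`, `OrdCount/Kummer.lean`, `OrdCount/Count.lean`):
`LOrd = B¹ + L0` with `L0` the ordinary flat cocycles; the coboundaries of the Borel matrices lie
in `L0` (`rb` peu ramifié), so `#LOrd ≤ #k · #L0`; the diagonal part of `c ∈ L0` is an unramified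
additive character (`#L0 ≤ #k · #N0`); a cocycle in `N0` is `β · E_{v0}`, determined by one value
and by `β|I'`, which lies in the Kummer set `KumSet` of cardinality `≤ #k` (unit map `λ` and
Frobenius-twisted additive maps).
-/

set_option autoImplicit false

namespace Fermat.Agent.TW.Flat

open Fermat.Agent.S53 Fermat.Agent.TW Fermat.Agent.TW.StrictOrd

/-- **FLAT-ORD-COUNT.** -/
theorem ordCount {k : Type} [Field k] [Finite k] : OrdCount k := by
  intro rb p _ hp2 hres P hP v0 hsh hpeu
  obtain ⟨hfin, hcard⟩ := OrdCnt.card_LOrd_le_pow hp2 hres hsh hpeu hP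
  refine ⟨hfin, hcard.trans (le_of_eq ?_)⟩
  have h3 := card_H0On_mul_card_B1On (P.decompositionSubgroup ℚ) rb
  rw [mul_right_comm, h3]
  ring

end Fermat.Agent.TW.Flat
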