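/-
TW-FLAT (task 255), FINAL: `exists_locFamily_fl`, unconditional.

All six named statements of `TW/Flat/Defs.lean` are theorems:
`flatBridge k`, `ordContain k`, `ordUnique k`, `ordCount`, `ssContain`, `SS.ssCount_final`.
-/
import Mathlib
import Fermat.Agent.TW.Flat.FinalOfCount
import Fermat.Agent.TW.Flat.SSCount

set_option autoImplicit false

namespace Fermat.Agent.TW

open Fermat.Agent.S53 Fermat.Agent.TW.Flat

variable {k : Type} [Field k]

/-- **TW-FLAT.** For a residual representation satisfying `ResidualHyp rb p` (`p` odd) there is a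
family of local conditions at the places above `p`, of dimension `≤ h⁰(D_P, ad⁰) + 1` modulo
coboundaries, containing the restriction of every first-order lift that is flat at `p` with
cyclotomic determinant. -/
theorem exists_locFamily_fl [Finite k] (rb : GQ →* Mat2 k) (p : ℕ) [Fact p.Prime] (hp2 : p ≠ 2)
    (h : ResidualHyp rb p) :
    ∃ Lp : LocFamily k,
      (∀ P : ValuationSubring (AlgebraicClosure ℚ), P.LiesOverPrime p → LocBound rb P 1 (Lp P)) ∧
      ∀ (P : ValuationSubring (AlgebraicClosure ℚ)), P.LiesOverPrime p →
      ∀ (c : GQ → Mat2 k) (r : GQ →* Mat2 (DualNumber k)) (hr : MatCont r),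
        (∀ σ, r σ = liftMat rb c σ) →
        (repOfMat r hr).DetIsCyclotomic p → (repOfMat r hr).IsFlatAt p →
          resOn (P.decompositionSubgroup ℚ) c ∈ Lp P :=
  FinalOf.exists_locFamily_fl_of_ssCount SS.ssCount_final rb p hp2 h

end Fermat.Agent.TW
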