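/-
TW-FLAT (task 255): INSTANTIATION of `exists_locFamily_fl_of` with the named statements that are
theorems (`flatBridge`, `ordUnique`, and — through `SSC/Inst.lean` — everything of the
supersingular containment except Fontaine's twist).  After this file `exists_locFamily_fl` hangs
on exactly four named statements: `OrdContain k`, `OrdCount k`, `SSC.TwistCore k`, `SSCount k`.
-/
import Mathlib
import Fermat.Agent.TW.Flat.Main
import Fermat.Agent.TW.Flat.Bridge
import Fermat.Agent.TW.Flat.OrdUnique
import Fermat.Agent.TW.Flat.SSC.Inst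

set_option autoImplicit false

namespace Fermat.Agent.TW.Flat.FinalOf

open Fermat.Agent.S53 Fermat.Agent.TW Fermat.Agent.TW.Flat

variable {k : Type} [Field k]

/-- **TW-FLAT from the four named statements that are still to be proved.** -/
theorem exists_locFamily_fl_of_open [Finite k] (hoc : OrdContain k) (hon : OrdCount k)
    (hCore : SSC.TwistCore k) (hsn : SSCount k)
    (rb : GQ →* Mat2 k) (p : ℕ) [Fact p.Prime] (hp2 : p ≠ 2) (h : ResidualHyp rb p) :
    ∃ Lp : LocFamily k,
      (∀ P : ValuationSubring (AlgebraicClosure ℚ), P.LiesOverPrime p → LocBound rb P 1 (Lp P)) ∧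
      ∀ (P : ValuationSubring (AlgebraicClosure ℚ)), P.LiesOverPrime p →
      ∀ (c : GQ → Mat2 k) (r : GQ →* Mat2 (DualNumber k)) (hr : MatCont r),
        (∀ σ, r σ = liftMat rb c σ) →
        (repOfMat r hr).DetIsCyclotomic p → (repOfMat r hr).IsFlatAt p →
          resOn (P.decompositionSubgroup ℚ) c ∈ Lp P :=
  exists_locFamily_fl_of (flatBridge k) hoc (ordUnique k) hon
    (SSC.Inst.ssContain_of_twistCore k hCore) hsn rb p hp2 h

end Fermat.Agent.TW.Flat.FinalOf
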