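/-
TW-FLAT (task 255): `exists_locFamily_fl` from the TWO named statements that are still open,
`SSC.TwistCore k` (Fontaine's twist) and `SSCount k` (the supersingular count).  The reducible
case (`ordContain`, `ordCount`, `ordUnique`), the bridge `flatBridge` and all other inputs of the
supersingular containment are theorems.
-/
import Mathlib
import Fermat.Agent.TW.Flat.FinalOf
import Fermat.Agent.TW.Flat.OrdContainFinal
import Fermat.Agent.TW.Flat.OrdCount

set_option autoImplicit false

namespace Fermat.Agent.TW.Flat.FinalOf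

open Fermat.Agent.S53 Fermat.Agent.TW Fermat.Agent.TW.Flat

variable {k : Type} [Field k]

/-- **TW-FLAT from Fontaine's twist and the supersingular count.** -/
theorem exists_locFamily_fl_of_ss [Finite k] (hCore : SSC.TwistCore k) (hsn : SSCount k)
    (rb : GQ →* Mat2 k) (p : ℕ) [Fact p.Prime] (hp2 : p ≠ 2) (h : ResidualHyp rb p) :
    ∃ Lp : LocFamily k,
      (∀ P : ValuationSubring (AlgebraicClosure ℚ), P.LiesOverPrime p → LocBound rb P 1 (Lp P)) ∧
      ∀ (P : ValuationSubring (AlgebraicClosure ℚ)), P.LiesOverPrime p →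
      ∀ (c : GQ → Mat2 k) (r : GQ →* Mat2 (DualNumber k)) (hr : MatCont r),
        (∀ σ, r σ = liftMat rb c σ) →
        (repOfMat r hr).DetIsCyclotomic p → (repOfMat r hr).IsFlatAt p →
          resOn (P.decompositionSubgroup ℚ) c ∈ Lp P :=
  exists_locFamily_fl_of_open (ordContain k) ordCount hCore hsn rb p hp2 h

end Fermat.Agent.TW.Flat.FinalOf
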