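/-
TW-FLAT, row 322 (FLAT-ORD-COUNT), step (d): the Kummer separation of the ordinary count.

`P` is a valuation subring of `Qb` over `p`, `D ⊇ I ⊇ I'` its decomposition group, inertia group
and `I' = inertiaCyc P p`.  Let `η : D →* kˣ` be a character which is the mod `p` cyclotomic
character on `I`.  For the functions `β : D → k` with `β (σ τ) = β σ + η σ · β τ` all of whose
additive characters `ψ0 ∘ β|I'` are Kummer characters of UNITS of `P`, the restriction `β|I'` takes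
at most `#k` values:

* `exists_kummer_sep` : there are a finite type `T` with `#T ≤ #k` and a map `f` from functions
  on `D` to `T` such that `f β = f β'` forces `β = β'` on `I'`.

The input is an "unramified logarithm" `lam` on the `I`-fixed units of `P` (additive, killing
`p`-th powers, with kernel the `p`-th powers, Frobenius-semilinear): `lam u = ((u/ζ_u − 1)/p mod 𝔪)`.

Proof: a witness `z` for `(β, ψ0)` has `z^p` fixed by `I'`; the norm `N(z^p)` over `I/I'` is an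
`I`-fixed unit; `A_β ψ0 := lam (N (z^p))` is independent of `z`, additive in `ψ0`, and
`A_β (ψ0 ∘ c0) = (A_β ψ0)^p` for `c0 = ω(φ)/η(φ)`, `φ` a Frobenius.  Such maps are at most `#k`
(`Lib/LinAlg/FrobFixed`), and `A_β = A_β'` implies `β = β'` on `I'`, because `[I : I']` is prime
to `p`.
-/
import Mathlib
import Fermat.Agent.TW.Flat.Interfaces
import Fermat.Agent.Lib.LinAlg.FrobFixed
import Fermat.Agent.Lib.FrobeniusExists
import Fermat.Agent.TW.Flat.UnitLam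

set_option autoImplicit false
set_option linter.style.haveILetI false

namespace Fermat.Agent.TW.Flat.OrdKum

open Fermat.Agent.S53 Fermat.Agent.TW Fermat.Agent.TW.Flat

local notation "Qb" => AlgebraicClosure ℚ

noncomputable section

/-! ### A. The norm over a coset space -/

section Norm

variable {G : Type*} [Group G] (H : Subgroup G) {M : Type*} [CommMonoid M]
  [MulDistribMulAction G M]

/-- The product of the translates of `x` by representatives of the cosets of `H`. -/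
def nrm (x : M) : M := ∏ᶠ q : G ⧸ H, (Quotient.out q : G) • x

theorem nrm_mul [Finite (G ⧸ H)] (x y : M) : nrm H (x * y) = nrm H x * nrm H y := by
  unfold nrm
  rw [← finprod_mul_distrib (Set.toFinite _) (Set.toFinite _)]
  exact finprod_congr fun q => smul_mul' _ _ _

theorem nrm_pow [Finite (G ⧸ H)] (x : M) (n : ℕ) : nrm H (x ^ n) = nrm H x ^ n := by
  unfold nrm
  rw [finprod_pow (Set.toFinite _)]
  exact finprod_congr fun q => smul_pow' _ _ _

theorem nrm_induction (C : M → Prop) (h1 : C 1) (hmul : ∀ a b, C a → C b → C (a * b)) (x : M)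
    (hx : ∀ g : G, C (g • x)) : C (nrm H x) :=
  finprod_induction C h1 hmul fun _ => hx _

theorem out_smul_eq {x : M} (hx : ∀ h ∈ H, h • x = x) (a : G) :
    (Quotient.out (QuotientGroup.mk a : G ⧸ H) : G) • x = a • x := by
  obtain ⟨h, hh⟩ := QuotientGroup.mk_out_eq_mul H a
  rw [hh, mul_smul, hx h h.2]

theorem smul_nrm [Finite (G ⧸ H)] {x : M} (hx : ∀ h ∈ H, h • x = x) (g : G) :
    g • nrm H x = nrm H x := by
  cases nonempty_fintype (G ⧸ H)
  unfold nrm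
  rw [finprod_eq_prod_of_fintype, Finset.smul_prod']
  refine Fintype.prod_equiv (MulAction.toPerm g) _ _ fun q => ?_
  rw [MulAction.toPerm_apply]
  have h1 : g • q = QuotientGroup.mk (g * Quotient.out q) := by
    conv_lhs => rw [← QuotientGroup.out_eq' q]
    rfl
  rw [h1, out_smul_eq H hx, mul_smul]

theorem map_nrm [Finite (G ⧸ H)] {F : Type*} [FunLike F M M] [MonoidHomClass F M M] (φ : F)
    (α : G ≃* G) (hα : ∀ a : G, a ∈ H ↔ α a ∈ H) (hφ : ∀ (g : G) (y : M), φ (g • y) = α g • φ y)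
    {x : M} (hx : ∀ h ∈ H, h • x = x) : φ (nrm H x) = nrm H (φ x) := by
  cases nonempty_fintype (G ⧸ H)
  have hx' : ∀ h ∈ H, h • φ x = φ x := by
    intro h hh
    have h2 : h = α (α.symm h) := (α.apply_symm_apply h).symm
    rw [h2, ← hφ, hx _ ((hα _).2 (by rwa [α.apply_symm_apply]))]
  let c : G ⧸ H ≃ G ⧸ H := Quotient.congr α.toEquiv (fun a b => by
    show QuotientGroup.leftRel H a b ↔ QuotientGroup.leftRel H (α a) (α b)
    rw [QuotientGroup.leftRel_apply, QuotientGroup.leftRel_apply, ← map_inv, ← map_mul]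
    exact hα _)
  unfold nrm
  rw [finprod_eq_prod_of_fintype, finprod_eq_prod_of_fintype, map_prod]
  refine Fintype.prod_equiv c _ _ fun q => ?_
  rw [hφ]
  have hc : c q = QuotientGroup.mk (α (Quotient.out q)) := by
    conv_lhs => rw [← QuotientGroup.out_eq' q]
    rfl
  rw [hc, out_smul_eq H hx']

end Norm

/-! ### B. Additive characters of a finite field with values in `Qb` -/

section AddCharFacts

variable {k : Type} [Field k] [Finite k]

theorem finite_addChar : Finite (AddChar k Qb) := by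
  have h := linearIndependent_monoidHom (Multiplicative k) Qb
  haveI : Finite (Multiplicative k →* Qb) := h.finite
  exact Finite.of_equiv _ AddChar.toMonoidHomEquiv.symm

theorem card_addChar_le : Nat.card (AddChar k Qb) ≤ Nat.card k := by
  have h := linearIndependent_monoidHom (Multiplicative k) Qb
  haveI : Finite (Multiplicative k →* Qb) := h.finite
  cases nonempty_fintype (Multiplicative k →* Qb)
  cases nonempty_fintype (Multiplicative k)
  have h1 := h.fintype_card_le_finrank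
  rw [Module.finrank_fintype_fun_eq_card] at h1
  rw [Nat.card_congr AddChar.toMonoidHomEquiv, Nat.card_eq_fintype_card]
  refine h1.trans (le_of_eq ?_)
  rw [← Nat.card_eq_fintype_card]
  exact Nat.card_congr Multiplicative.toAdd

omit [Finite k] in
theorem addChar_pow_eq_one {p : ℕ} (hpk : (p : k) = 0) (ψ : AddChar k Qb) (x : k) :
    ψ x ^ p = 1 := by
  rw [← AddChar.map_nsmul_eq_pow, nsmul_eq_mul, hpk, zero_mul, AddChar.map_zero_eq_one]

theorem exists_addChar_ne_one {p : ℕ} [Fact p.Prime] (hpk : (p : k) = 0) {x : k} (hx : x ≠ 0) :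
    ∃ ψ : AddChar k Qb, ψ x ≠ 1 := by
  haveI : CharP k p := (CharP.charP_iff_prime_eq_zero Fact.out).2 hpk
  letI : Algebra (ZMod p) k := ZMod.algebra k p
  have h1 : ∃ f : Module.Dual (ZMod p) k, f x ≠ 0 := by
    by_contra hcon
    push Not at hcon
    exact hx ((Module.forall_dual_apply_eq_zero_iff (ZMod p) x).1 hcon)
  obtain ⟨f, hf⟩ := h1
  haveI : NeZero p := ⟨(Fact.out : p.Prime).ne_zero⟩
  obtain ⟨ζ, hζ⟩ := HasEnoughRootsOfUnity.exists_primitiveRoot Qb p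
  refine ⟨(AddChar.zmodChar p hζ.pow_eq_one).compAddMonoidHom f.toAddMonoidHom, ?_⟩
  rw [AddChar.compAddMonoidHom_apply]
  show AddChar.zmodChar p hζ.pow_eq_one (f x) ≠ 1
  rw [AddChar.zmodChar_apply]
  refine hζ.pow_ne_one_of_pos_of_lt ?_ (ZMod.val_lt _)
  rwa [Ne, ZMod.val_eq_zero]

/-- Precomposition of an additive character of `k` with a multiplication. -/
def scaleChar (c : k) (ψ : AddChar k Qb) : AddChar k Qb where
  toFun x := ψ (c * x)
  map_zero_eq_one' := by rw [mul_zero, AddChar.map_zero_eq_one]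
  map_add_eq_mul' x y := by rw [mul_add, AddChar.map_add_eq_mul]

omit [Finite k] in
theorem scaleChar_apply (c : k) (ψ : AddChar k Qb) (x : k) : scaleChar c ψ x = ψ (c * x) := rfl

omit [Finite k] in
theorem scaleChar_one (ψ : AddChar k Qb) : scaleChar 1 ψ = ψ := by
  ext x
  rw [scaleChar_apply, one_mul]

omit [Finite k] in
theorem scaleChar_scaleChar (c d : k) (ψ : AddChar k Qb) :
    scaleChar c (scaleChar d ψ) = scaleChar (d * c) ψ := by
  ext x
  rw [scaleChar_apply, scaleChar_apply, scaleChar_apply, mul_assoc]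

omit [Finite k] in
theorem scaleChar_surjective {c : k} (hc : c ≠ 0) :
    Function.Surjective (scaleChar c : AddChar k Qb → AddChar k Qb) := fun ψ =>
  ⟨scaleChar c⁻¹ ψ, by rw [scaleChar_scaleChar, inv_mul_cancel₀ hc, scaleChar_one]⟩

end AddCharFacts

/-! ### C. Decomposition group, inertia and `I'` -/

section Galois

variable (P : ValuationSubring Qb) (p : ℕ)

theorem inertia_le : P.inertiaSubgroupIn ℚ ≤ P.decompositionSubgroup ℚ := by
  rintro σ ⟨x, -, rfl⟩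
  exact x.2

theorem cyc_le : inertiaCyc P p ≤ P.inertiaSubgroupIn ℚ := fun _ h => h.1

theorem conj_mem_inertia {φ τ : GQ} (hφ : φ ∈ P.decompositionSubgroup ℚ)
    (hτ : τ ∈ P.inertiaSubgroupIn ℚ) : φ * τ * φ⁻¹ ∈ P.inertiaSubgroupIn ℚ := by
  obtain ⟨t, ht, rfl⟩ := hτ
  have hn : (P.inertiaSubgroup ℚ).Normal := by
    unfold ValuationSubring.inertiaSubgroup
    exact MonoidHom.normal_ker _
  have h := hn.conj_mem t ht ⟨φ, hφ⟩
  exact Subgroup.mem_map.mpr ⟨_, h, rfl⟩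

theorem gq_inv_apply (φ : GQ) (x : Qb) : φ⁻¹ (φ x) = x := by
  show (φ⁻¹ * φ) x = x
  rw [inv_mul_cancel]
  rfl

theorem gq_apply_inv (φ : GQ) (x : Qb) : φ (φ⁻¹ x) = x := by
  show (φ * φ⁻¹) x = x
  rw [mul_inv_cancel]
  rfl

theorem conj_mem_cyc {φ σ : GQ} (hφ : φ ∈ P.decompositionSubgroup ℚ)
    (hσ : σ ∈ inertiaCyc P p) : φ * σ * φ⁻¹ ∈ inertiaCyc P p := by
  refine ⟨conj_mem_inertia P hφ hσ.1, fun ζ hζ => ?_⟩
  have h1 : (φ⁻¹ ζ) ^ p = 1 := by rw [← map_pow, hζ, map_one]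
  show φ (σ (φ⁻¹ ζ)) = ζ
  rw [hσ.2 _ h1, gq_apply_inv]

theorem apply_mem {φ : GQ} (hφ : φ ∈ P.decompositionSubgroup ℚ) {x : Qb} (hx : x ∈ P) :
    φ x ∈ P :=
  ((⟨φ, hφ⟩ : P.decompositionSubgroup ℚ) • (⟨x, hx⟩ : P) : P).2

variable {P}

theorem isPUnit_apply {φ : GQ} (hφ : φ ∈ P.decompositionSubgroup ℚ) {z : Qb}
    (hz : IsPUnit P z) : IsPUnit P (φ z) :=
  ⟨(map_ne_zero _).2 hz.1, apply_mem P hφ hz.2.1, by
    rw [← map_inv₀]; exact apply_mem P hφ hz.2.2⟩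

theorem isPUnit_inv {z : Qb} (hz : IsPUnit P z) : IsPUnit P z⁻¹ :=
  ⟨inv_ne_zero hz.1, hz.2.2, by rw [inv_inv]; exact hz.2.1⟩

theorem isPUnit_pow {z : Qb} (hz : IsPUnit P z) (n : ℕ) : IsPUnit P (z ^ n) :=
  ⟨pow_ne_zero _ hz.1, pow_mem hz.2.1 n, by rw [← inv_pow]; exact pow_mem hz.2.2 n⟩

variable (P)

/-- Every automorphism acts on the `p`-th roots of unity by a power prime to `p`. -/
theorem exists_pow_action [Fact p.Prime] (τ : GQ) :
    ∃ a : ℕ, ¬ p ∣ a ∧ ∀ μ : Qb, μ ^ p = 1 → τ μ = μ ^ a := by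
  haveI : NeZero p := ⟨(Fact.out : p.Prime).ne_zero⟩
  obtain ⟨ζ, hζ⟩ := HasEnoughRootsOfUnity.exists_primitiveRoot Qb p
  have h1 : (τ ζ) ^ p = 1 := by rw [← map_pow, hζ.pow_eq_one, map_one]
  obtain ⟨a, ha, hae⟩ := hζ.eq_pow_of_pow_eq_one h1
  refine ⟨a, fun hpa => ?_, fun μ hμ => ?_⟩
  · have ha0 : a = 0 := Nat.eq_zero_of_dvd_of_lt hpa ha
    rw [ha0, pow_zero] at hae
    exact hζ.ne_one (Fact.out : p.Prime).one_lt ((map_eq_one_iff τ τ.injective).1 hae.symm)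
  · obtain ⟨j, -, rfl⟩ := hζ.eq_pow_of_pow_eq_one hμ
    rw [map_pow, ← hae, ← pow_mul, ← pow_mul, mul_comm]

/-- `I'` as a subgroup of `I`. -/
abbrev cycIn : Subgroup ↥(P.inertiaSubgroupIn ℚ) :=
  (inertiaCyc P p).subgroupOf (P.inertiaSubgroupIn ℚ)

theorem index_cycIn_dvd [Fact p.Prime] : (cycIn P p).index ∣ p - 1 := by
  haveI : NeZero p := ⟨(Fact.out : p.Prime).ne_zero⟩
  haveI : Fact (1 < p) := ⟨(Fact.out : p.Prime).one_lt⟩
  obtain ⟨ζ, hζ⟩ := HasEnoughRootsOfUnity.exists_primitiveRoot Qb p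
  let f : ↥(P.inertiaSubgroupIn ℚ) →* (ZMod p)ˣ :=
    (hζ.autToPow ℚ).comp (Subgroup.subtype _)
  have hker : cycIn P p = f.ker := by
    ext σ
    rw [Subgroup.mem_subgroupOf, MonoidHom.mem_ker, mem_inertiaCyc]
    constructor
    · rintro ⟨-, h⟩
      have h1 := hζ.autToPow_spec ℚ (σ : GQ)
      rw [h ζ hζ.pow_eq_one] at h1
      have h2 : ((hζ.autToPow ℚ (σ : GQ) : (ZMod p)ˣ) : ZMod p).val = 1 :=
        hζ.pow_inj (ZMod.val_lt _) (Fact.out : 1 < p) (h1.trans (pow_one ζ).symm)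
      apply Units.ext
      apply ZMod.val_injective
      show ((hζ.autToPow ℚ (σ : GQ) : (ZMod p)ˣ) : ZMod p).val = ((1 : (ZMod p)ˣ) : ZMod p).val
      rw [h2, Units.val_one, ZMod.val_one]
    · intro h
      refine ⟨σ.2, fun μ hμ => ?_⟩
      have h1 := hζ.autToPow_spec ℚ (σ : GQ)
      have h2 : hζ.autToPow ℚ (σ : GQ) = 1 := h
      rw [h2, Units.val_one, ZMod.val_one, pow_one] at h1
      obtain ⟨j, -, rfl⟩ := hζ.eq_pow_of_pow_eq_one hμ
      rw [map_pow, ← h1]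
  rw [hker, Subgroup.index_ker]
  have h3 := Subgroup.card_subgroup_dvd_card f.range
  rwa [Nat.card_eq_fintype_card (α := (ZMod p)ˣ), ZMod.card_units] at h3

theorem index_cycIn_coprime [Fact p.Prime] : Nat.Coprime (cycIn P p).index p := by
  have hp : p.Prime := Fact.out
  refine Nat.Coprime.coprime_dvd_left (index_cycIn_dvd P p) ?_
  exact ((Nat.Prime.coprime_iff_not_dvd hp).2
    (Nat.not_dvd_of_pos_of_lt (Nat.sub_pos_of_lt hp.one_lt) (Nat.sub_lt hp.pos one_pos))).symm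

theorem finite_quot_cycIn [Fact p.Prime] :
    Finite (↥(P.inertiaSubgroupIn ℚ) ⧸ cycIn P p) := by
  have hp : p.Prime := Fact.out
  have h0 : (cycIn P p).index ≠ 0 := fun h0 => by
    have h1 := index_cycIn_dvd P p
    rw [h0, zero_dvd_iff] at h1
    have := Nat.sub_pos_of_lt hp.one_lt
    omega
  haveI : (cycIn P p).FiniteIndex := ⟨h0⟩
  exact Subgroup.finite_quotient_of_finiteIndex

/-- Conjugation by an element of the decomposition group, on the inertia group. -/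
def conjI (φ : GQ) (hφ : φ ∈ P.decompositionSubgroup ℚ) :
    ↥(P.inertiaSubgroupIn ℚ) ≃* ↥(P.inertiaSubgroupIn ℚ) where
  toFun τ := ⟨φ * τ * φ⁻¹, conj_mem_inertia P hφ τ.2⟩
  invFun τ := ⟨φ⁻¹ * τ * φ, by
    have h := conj_mem_inertia P (inv_mem hφ) τ.2
    rwa [inv_inv] at h⟩
  left_inv τ := Subtype.ext (by
    show φ⁻¹ * (φ * (τ : GQ) * φ⁻¹) * φ = τ
    group)
  right_inv τ := Subtype.ext (by
    show φ * (φ⁻¹ * (τ : GQ) * φ) * φ⁻¹ = τ
    group)
  map_mul' a b := Subtype.ext (by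
    show φ * ((a : GQ) * b) * φ⁻¹ = (φ * a * φ⁻¹) * (φ * b * φ⁻¹)
    group)

/-- The norm from the `I'`-fixed elements to the `I`-fixed elements. -/
def nrmI (x : Qb) : Qb := nrm (cycIn P p) x

theorem nrmI_mul [Fact p.Prime] (x y : Qb) : nrmI P p (x * y) = nrmI P p x * nrmI P p y := by
  haveI := finite_quot_cycIn P p
  exact nrm_mul _ x y

theorem nrmI_pow [Fact p.Prime] (x : Qb) (n : ℕ) : nrmI P p (x ^ n) = nrmI P p x ^ n := by
  haveI := finite_quot_cycIn P p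
  exact nrm_pow _ x n

theorem nrmI_unit {x : Qb} (hx : IsPUnit P x) : IsPUnit P (nrmI P p x) :=
  nrm_induction (cycIn P p) (IsPUnit P) (isPUnit_one P) (fun _ _ ha hb => ha.mul hb) x
    fun g => isPUnit_apply (inertia_le P g.2) hx

theorem nrmI_fixed [Fact p.Prime] {x : Qb} (hx : ∀ σ ∈ inertiaCyc P p, σ x = x) (τ : GQ)
    (hτ : τ ∈ P.inertiaSubgroupIn ℚ) : τ (nrmI P p x) = nrmI P p x := by
  haveI := finite_quot_cycIn P p
  exact smul_nrm (cycIn P p) (x := x) (fun h hh => hx h hh) ⟨τ, hτ⟩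

theorem nrmI_apply [Fact p.Prime] {φ : GQ} (hφ : φ ∈ P.decompositionSubgroup ℚ) {x : Qb}
    (hx : ∀ σ ∈ inertiaCyc P p, σ x = x) : φ (nrmI P p x) = nrmI P p (φ x) := by
  haveI := finite_quot_cycIn P p
  refine map_nrm (cycIn P p) φ (conjI P φ hφ) (fun a => ?_) (fun g y => ?_) (x := x)
    (fun h hh => hx h hh)
  · constructor
    · intro ha
      exact conj_mem_cyc P p hφ ha
    · intro ha
      have h := conj_mem_cyc P p (inv_mem hφ) ha
      have e : φ⁻¹ * (φ * (a : GQ) * φ⁻¹) * φ⁻¹⁻¹ = a := by group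
      show (a : GQ) ∈ inertiaCyc P p
      rw [← e]
      exact h
  · show φ ((g : GQ) y) = φ ((g : GQ) (φ⁻¹ (φ y)))
    rw [gq_inv_apply]

end Galois

/-! ### D. Cocycles and Kummer witnesses -/

section Witness

variable {k : Type} [Field k] {P : ValuationSubring Qb} {p : ℕ}

/-- The cocycle identity for the character `η`. -/
def Coc (η : ↥(P.decompositionSubgroup ℚ) →* kˣ) (β : ↥(P.decompositionSubgroup ℚ) → k) :
    Prop :=
  ∀ σ τ, β (σ * τ) = β σ + (η σ : k) * β τ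

theorem Coc.map_one {η : ↥(P.decompositionSubgroup ℚ) →* kˣ}
    {β : ↥(P.decompositionSubgroup ℚ) → k} (h : Coc η β) : β 1 = 0 := by
  have h1 := h 1 1
  rw [mul_one, _root_.map_one, Units.val_one, one_mul] at h1
  exact left_eq_add.1 h1

theorem Coc.map_inv {η : ↥(P.decompositionSubgroup ℚ) →* kˣ}
    {β : ↥(P.decompositionSubgroup ℚ) → k} (h : Coc η β) (τ : ↥(P.decompositionSubgroup ℚ)) :
    β τ⁻¹ = -(((η τ)⁻¹ : kˣ) : k) * β τ := by
  have h1 := h τ⁻¹ τ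
  rw [inv_mul_cancel, h.map_one, _root_.map_inv] at h1
  linear_combination -h1

theorem Coc.conj {η : ↥(P.decompositionSubgroup ℚ) →* kˣ}
    {β : ↥(P.decompositionSubgroup ℚ) → k} (h : Coc η β) (τ σ : ↥(P.decompositionSubgroup ℚ))
    (hσ : η σ = 1) : β (τ⁻¹ * σ * τ) = (((η τ)⁻¹ : kˣ) : k) * β σ := by
  rw [mul_assoc, h, h σ τ, h.map_inv, hσ, _root_.map_inv, Units.val_one]
  ring

theorem Coc.sub {η : ↥(P.decompositionSubgroup ℚ) →* kˣ}
    {β β' : ↥(P.decompositionSubgroup ℚ) → k} (h : Coc η β) (h' : Coc η β') :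
    Coc η (β - β') := by
  intro σ τ
  rw [Pi.sub_apply, Pi.sub_apply, Pi.sub_apply, h, h']
  ring

variable (P p)

/-- `z` is a unit Kummer witness for the character `ψ0 ∘ β` of `I'`. -/
def Wit (β : ↥(P.decompositionSubgroup ℚ) → k) (ψ0 : AddChar k Qb) (z : Qb) : Prop :=
  IsPUnit P z ∧ ∀ σ : ↥(P.decompositionSubgroup ℚ), (σ : GQ) ∈ inertiaCyc P p →
    (σ : GQ) z = ψ0 (β σ) * z

/-- All additive characters of `β|I'` are Kummer characters of units of `P`. -/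
def UnitKum (β : ↥(P.decompositionSubgroup ℚ) → k) : Prop :=
  ∀ ψ0 : AddChar k Qb, ∃ z : Qb, IsPUnit P z ∧
    ∀ σ : ↥(P.decompositionSubgroup ℚ), (σ : GQ) ∈ inertiaCyc P p → (σ : GQ) z = ψ0 (β σ) * z

theorem unitKum_iff (β : ↥(P.decompositionSubgroup ℚ) → k) :
    UnitKum P p β ↔ ∀ ψ0 : AddChar k Qb, ∃ z : Qb, Wit P p β ψ0 z := Iff.rfl

variable {P p}

theorem addChar_ne_zero (ψ : AddChar k Qb) (x : k) : ψ x ≠ 0 := by
  have h : ψ x * ψ (-x) = 1 := by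
    rw [← AddChar.map_add_eq_mul, add_neg_cancel, AddChar.map_zero_eq_one]
  exact left_ne_zero_of_mul_eq_one h

theorem Wit.mul {β : ↥(P.decompositionSubgroup ℚ) → k} {ψ₁ ψ₂ : AddChar k Qb} {z₁ z₂ : Qb}
    (h₁ : Wit P p β ψ₁ z₁) (h₂ : Wit P p β ψ₂ z₂) : Wit P p β (ψ₁ * ψ₂) (z₁ * z₂) := by
  refine ⟨h₁.1.mul h₂.1, fun σ hσ => ?_⟩
  rw [map_mul, h₁.2 σ hσ, h₂.2 σ hσ, AddChar.mul_apply]
  ring

theorem Wit.sub {β β' : ↥(P.decompositionSubgroup ℚ) → k} {ψ : AddChar k Qb} {z z' : Qb}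
    (h : Wit P p β ψ z) (h' : Wit P p β' ψ z') : Wit P p (β - β') ψ (z * z'⁻¹) := by
  refine ⟨h.1.mul (isPUnit_inv h'.1), fun σ hσ => ?_⟩
  rw [map_mul, map_inv₀, h.2 σ hσ, h'.2 σ hσ, Pi.sub_apply, AddChar.map_sub_eq_div]
  have h0 := addChar_ne_zero ψ (β' σ)
  have h1 := h'.1.1
  field_simp

theorem Wit.pow_fixed {β : ↥(P.decompositionSubgroup ℚ) → k} {ψ : AddChar k Qb} {z : Qb}
    (hpk : (p : k) = 0) (h : Wit P p β ψ z) (σ : GQ) (hσ : σ ∈ inertiaCyc P p) :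
    σ (z ^ p) = z ^ p := by
  have h1 := h.2 ⟨σ, inertia_le P (cyc_le P p hσ)⟩ hσ
  have h2 : σ z = ψ (β ⟨σ, inertia_le P (cyc_le P p hσ)⟩) * z := h1
  rw [map_pow, h2, mul_pow, addChar_pow_eq_one hpk, one_mul]

theorem Wit.same_fixed {β : ↥(P.decompositionSubgroup ℚ) → k} {ψ : AddChar k Qb} {z₁ z₂ : Qb}
    (h₁ : Wit P p β ψ z₁) (h₂ : Wit P p β ψ z₂) (σ : GQ) (hσ : σ ∈ inertiaCyc P p) :
    σ (z₁ * z₂⁻¹) = z₁ * z₂⁻¹ := by
  have e₁ : σ z₁ = ψ (β ⟨σ, inertia_le P (cyc_le P p hσ)⟩) * z₁ :=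
    h₁.2 ⟨σ, inertia_le P (cyc_le P p hσ)⟩ hσ
  have e₂ : σ z₂ = ψ (β ⟨σ, inertia_le P (cyc_le P p hσ)⟩) * z₂ :=
    h₂.2 ⟨σ, inertia_le P (cyc_le P p hσ)⟩ hσ
  rw [map_mul, map_inv₀, e₁, e₂]
  have h0 := addChar_ne_zero ψ (β ⟨σ, inertia_le P (cyc_le P p hσ)⟩)
  have h1 := h₂.1.1
  field_simp

/-- Transport of a witness by an element of the decomposition group acting on the `p`-th roots
of unity by the `a`-th power. -/
theorem Wit.apply {η : ↥(P.decompositionSubgroup ℚ) →* kˣ}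
    {β : ↥(P.decompositionSubgroup ℚ) → k} (hpk : (p : k) = 0) (hcoc : Coc η β)
    (hη1 : ∀ σ : ↥(P.decompositionSubgroup ℚ), (σ : GQ) ∈ inertiaCyc P p → η σ = 1)
    (τ : ↥(P.decompositionSubgroup ℚ)) (a : ℕ)
    (ha : ∀ μ : Qb, μ ^ p = 1 → (τ : GQ) μ = μ ^ a) {ψ0 : AddChar k Qb} {z : Qb}
    (hz : Wit P p β ψ0 z) :
    Wit P p β (scaleChar ((a : k) * (((η τ)⁻¹ : kˣ) : k)) ψ0) ((τ : GQ) z) := by
  refine ⟨isPUnit_apply τ.2 hz.1, fun σ hσ => ?_⟩
  have hσ' : ((τ⁻¹ * σ * τ : ↥(P.decompositionSubgroup ℚ)) : GQ) ∈ inertiaCyc P p := by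
    have h := conj_mem_cyc P p (inv_mem τ.2) hσ
    rw [inv_inv] at h
    exact h
  have e1 : (σ : GQ) ((τ : GQ) z)
      = (τ : GQ) (((τ⁻¹ * σ * τ : ↥(P.decompositionSubgroup ℚ)) : GQ) z) := by
    show (σ : GQ) ((τ : GQ) z) = (τ : GQ) (((τ : GQ)⁻¹ * (σ : GQ) * (τ : GQ)) z)
    show (σ : GQ) ((τ : GQ) z) = (τ : GQ) ((τ : GQ)⁻¹ ((σ : GQ) ((τ : GQ) z)))
    rw [gq_apply_inv]
  rw [e1, hz.2 _ hσ', map_mul, ha _ (addChar_pow_eq_one hpk ψ0 _), hcoc.conj τ σ (hη1 σ hσ),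
    ← AddChar.map_nsmul_eq_pow, nsmul_eq_mul, scaleChar_apply, mul_assoc]

/-- Transport of a witness by an element of inertia: the character does not change. -/
theorem Wit.apply_inertia [Fact p.Prime] {η : ↥(P.decompositionSubgroup ℚ) →* kˣ}
    {β : ↥(P.decompositionSubgroup ℚ) → k} (hpk : (p : k) = 0) (hcoc : Coc η β)
    (hηI : ∀ σ : ↥(P.decompositionSubgroup ℚ), (σ : GQ) ∈ P.inertiaSubgroupIn ℚ → ∀ a : ℕ,
      (∀ μ : Qb, μ ^ p = 1 → (σ : GQ) μ = μ ^ a) → (η σ : k) = (a : k))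
    (τ : ↥(P.decompositionSubgroup ℚ)) (hτ : (τ : GQ) ∈ P.inertiaSubgroupIn ℚ)
    {ψ0 : AddChar k Qb} {z : Qb} (hz : Wit P p β ψ0 z) : Wit P p β ψ0 ((τ : GQ) z) := by
  have hη1 : ∀ σ : ↥(P.decompositionSubgroup ℚ), (σ : GQ) ∈ inertiaCyc P p → η σ = 1 := by
    intro σ hσ
    apply Units.ext
    rw [hηI σ hσ.1 1 (fun μ hμ => by rw [hσ.2 μ hμ, pow_one]), Nat.cast_one, Units.val_one]
  obtain ⟨a, -, ha⟩ := exists_pow_action p (τ : GQ)
  have h := hz.apply hpk hcoc hη1 τ a ha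
  rw [← hηI τ hτ a ha, Units.mul_inv, scaleChar_one] at h
  exact h

end Witness

/-! ### E. The separation theorem -/

section Main

variable {k : Type} [Field k] {P : ValuationSubring Qb} {p : ℕ} [Fact p.Prime]

theorem charP_residueField (hP : P.LiesOverPrime p) : CharP (IsLocalRing.ResidueField P) p := by
  have hp : p.Prime := Fact.out
  refine (CharP.charP_iff_prime_eq_zero hp).2 ?_
  obtain ⟨hpP, hm⟩ := (P.mem_nonunits_iff_exists_mem_maximalIdeal).1 hP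
  rw [← map_natCast (IsLocalRing.residue P) p, IsLocalRing.residue_eq_zero_iff]
  have e : ((p : ℕ) : ↥P) = ⟨(p : Qb), hpP⟩ := Subtype.ext (by simp)
  rw [e]
  exact hm

omit [Fact p.Prime] in
theorem eta_eq_one {η : ↥(P.decompositionSubgroup ℚ) →* kˣ}
    (hηI : ∀ σ : ↥(P.decompositionSubgroup ℚ), (σ : GQ) ∈ P.inertiaSubgroupIn ℚ → ∀ a : ℕ,
      (∀ μ : Qb, μ ^ p = 1 → (σ : GQ) μ = μ ^ a) → (η σ : k) = (a : k))
    (σ : ↥(P.decompositionSubgroup ℚ)) (hσ : (σ : GQ) ∈ inertiaCyc P p) : η σ = 1 := by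
  apply Units.ext
  rw [hηI σ hσ.1 1 (fun μ hμ => by rw [hσ.2 μ hμ, pow_one]), Nat.cast_one, Units.val_one]

theorem Wit.nrUnit {β : ↥(P.decompositionSubgroup ℚ) → k} {ψ : AddChar k Qb} {z : Qb}
    (hpk : (p : k) = 0) (h : Wit P p β ψ z) : UnitLam.IsNrUnit P (nrmI P p (z ^ p)) :=
  ⟨nrmI_unit P p (isPUnit_pow h.1 p), fun τ hτ => nrmI_fixed P p (h.pow_fixed hpk) τ hτ⟩

/-- The norm of a witness is a witness for a power of the character prime to `p`. -/
theorem Wit.norm {η : ↥(P.decompositionSubgroup ℚ) →* kˣ}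
    {β : ↥(P.decompositionSubgroup ℚ) → k} (hpk : (p : k) = 0) (hcoc : Coc η β)
    (hηI : ∀ σ : ↥(P.decompositionSubgroup ℚ), (σ : GQ) ∈ P.inertiaSubgroupIn ℚ → ∀ a : ℕ,
      (∀ μ : Qb, μ ^ p = 1 → (σ : GQ) μ = μ ^ a) → (η σ : k) = (a : k))
    {ψ0 : AddChar k Qb} {z : Qb} (hz : Wit P p β ψ0 z) :
    ∃ n : ℕ, Nat.Coprime n p ∧ Wit P p β (ψ0 ^ n) (nrmI P p z) := by
  classical
  haveI := finite_quot_cycIn P p
  cases nonempty_fintype (↥(P.inertiaSubgroupIn ℚ) ⧸ cycIn P p)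
  have key : ∀ s : Finset (↥(P.inertiaSubgroupIn ℚ) ⧸ cycIn P p),
      Wit P p β (ψ0 ^ s.card)
        (∏ q ∈ s, ((Quotient.out q : ↥(P.inertiaSubgroupIn ℚ)) : GQ) z) := by
    intro s
    induction s using Finset.induction_on with
    | empty =>
      refine ⟨isPUnit_one P, fun σ _ => ?_⟩
      simp
    | insert q s hq ih =>
      rw [Finset.prod_insert hq, Finset.card_insert_of_notMem hq, pow_succ']
      exact (hz.apply_inertia hpk hcoc hηI ⟨_, inertia_le P (Quotient.out q).2⟩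
        (Quotient.out q).2).mul ih
  refine ⟨Fintype.card (↥(P.inertiaSubgroupIn ℚ) ⧸ cycIn P p), ?_, ?_⟩
  · have h := index_cycIn_coprime P p
    rwa [Subgroup.index, Nat.card_eq_fintype_card] at h
  · have h := key Finset.univ
    rw [Finset.card_univ] at h
    have e : nrmI P p z
        = ∏ q : ↥(P.inertiaSubgroupIn ℚ) ⧸ cycIn P p,
            ((Quotient.out q : ↥(P.inertiaSubgroupIn ℚ)) : GQ) z := by
      unfold nrmI nrm
      rw [finprod_eq_prod_of_fintype]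
      rfl
    rw [e]
    exact h

variable (lam : Qb → IsLocalRing.ResidueField P)

theorem lam_eq_of_wit (hpk : (p : k) = 0)
    (hmul : ∀ u u', UnitLam.IsNrUnit P u → UnitLam.IsNrUnit P u' → lam (u * u') = lam u + lam u')
    (hpow : ∀ w, UnitLam.IsNrUnit P w → lam (w ^ p) = 0)
    {β : ↥(P.decompositionSubgroup ℚ) → k} {ψ : AddChar k Qb} {z₁ z₂ : Qb}
    (h₁ : Wit P p β ψ z₁) (h₂ : Wit P p β ψ z₂) :
    lam (nrmI P p (z₁ ^ p)) = lam (nrmI P p (z₂ ^ p)) := by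
  have hwu : UnitLam.IsNrUnit P (nrmI P p (z₁ * z₂⁻¹)) :=
    ⟨nrmI_unit P p (h₁.1.mul (isPUnit_inv h₂.1)),
      fun τ hτ => nrmI_fixed P p (h₁.same_fixed h₂) τ hτ⟩
  have e : z₁ ^ p = z₂ ^ p * (z₁ * z₂⁻¹) ^ p := by
    have h0 := h₂.1.1
    rw [← mul_pow]
    congr 1
    field_simp
  rw [e, nrmI_mul, nrmI_pow P p (z₁ * z₂⁻¹), hmul _ _ (h₂.nrUnit hpk) (hwu.pow p),
    hpow _ hwu, add_zero]

theorem lam_mul_of_wit (hpk : (p : k) = 0)
    (hmul : ∀ u u', UnitLam.IsNrUnit P u → UnitLam.IsNrUnit P u' → lam (u * u') = lam u + lam u')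
    {β₁ β₂ : ↥(P.decompositionSubgroup ℚ) → k} {ψ₁ ψ₂ : AddChar k Qb} {z₁ z₂ : Qb}
    (h₁ : Wit P p β₁ ψ₁ z₁) (h₂ : Wit P p β₂ ψ₂ z₂) :
    lam (nrmI P p ((z₁ * z₂) ^ p)) = lam (nrmI P p (z₁ ^ p)) + lam (nrmI P p (z₂ ^ p)) := by
  rw [mul_pow, nrmI_mul, hmul _ _ (h₁.nrUnit hpk) (h₂.nrUnit hpk)]

theorem lam_frob_of_wit (hpk : (p : k) = 0)
    (hfrob : ∀ φ : GQ, P.IsFrobeniusAt φ p → ∀ u, UnitLam.IsNrUnit P u →
      UnitLam.IsNrUnit P (φ u) ∧ lam (φ u) = lam u ^ p)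
    {φ : GQ} (hφ : P.IsFrobeniusAt φ p) {β : ↥(P.decompositionSubgroup ℚ) → k}
    {ψ : AddChar k Qb} {z : Qb} (h : Wit P p β ψ z) :
    lam (nrmI P p ((φ z) ^ p)) = lam (nrmI P p (z ^ p)) ^ p := by
  rw [← map_pow, ← nrmI_apply P p hφ.mem_decompositionSubgroup (h.pow_fixed hpk)]
  exact (hfrob φ hφ _ (h.nrUnit hpk)).2

theorem eq_zero_of_lam [Finite k] (hpk : (p : k) = 0)
    (hker : ∀ u, UnitLam.IsNrUnit P u → lam u = 0 → ∃ y, UnitLam.IsNrUnit P y ∧ y ^ p = u)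
    {η : ↥(P.decompositionSubgroup ℚ) →* kˣ} {δ : ↥(P.decompositionSubgroup ℚ) → k}
    (hcoc : Coc η δ)
    (hηI : ∀ σ : ↥(P.decompositionSubgroup ℚ), (σ : GQ) ∈ P.inertiaSubgroupIn ℚ → ∀ a : ℕ,
      (∀ μ : Qb, μ ^ p = 1 → (σ : GQ) μ = μ ^ a) → (η σ : k) = (a : k))
    (H : ∀ ψ0 : AddChar k Qb, ∃ w : Qb, Wit P p δ ψ0 w ∧ lam (nrmI P p (w ^ p)) = 0)
    (σ : ↥(P.decompositionSubgroup ℚ)) (hσ : (σ : GQ) ∈ inertiaCyc P p) : δ σ = 0 := by
  by_contra hne
  obtain ⟨ψ0, hψ0⟩ := exists_addChar_ne_one hpk hne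
  obtain ⟨w, hw, hlam⟩ := H ψ0
  obtain ⟨y, hy, hyp⟩ := hker _ (hw.nrUnit hpk) hlam
  obtain ⟨n, hn, hwn⟩ := hw.norm hpk hcoc hηI
  rw [nrmI_pow] at hyp
  have hz0 : nrmI P p w ≠ 0 := hwn.1.1
  have hy0 : y ≠ 0 := hy.1.1
  have hζ : (nrmI P p w * y⁻¹) ^ p = 1 := by
    rw [mul_pow, inv_pow, hyp, mul_inv_cancel₀ (pow_ne_zero _ hz0)]
  have h1 : (σ : GQ) (nrmI P p w) = nrmI P p w := by
    have e : nrmI P p w = (nrmI P p w * y⁻¹) * y := by field_simp
    rw [e, map_mul, hσ.2 _ hζ, hy.2 _ hσ.1]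
  have h2 := hwn.2 σ hσ
  rw [h1, AddChar.pow_apply] at h2
  have h3 : ψ0 (δ σ) ^ n = 1 :=
    mul_right_cancel₀ hz0 (by rw [one_mul]; exact h2.symm)
  have h4 := pow_gcd_eq_one.2 ⟨h3, addChar_pow_eq_one hpk ψ0 (δ σ)⟩
  rw [Nat.Coprime.gcd_eq_one hn, pow_one] at h4
  exact hψ0 h4

/-- **Step (d) of FLAT-ORD-COUNT.**  The restrictions to `I'` of the `η`-cocycles on `D` all of
whose additive characters on `I'` are Kummer characters of units are separated by a map to a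
finite type with at most `#k` elements. -/
theorem exists_kummer_sep {k : Type} [Field k] [Finite k] (p : ℕ) [Fact p.Prime]
    (hpk : (p : k) = 0) (P : ValuationSubring Qb) (hP : P.LiesOverPrime p)
    (lam : Qb → IsLocalRing.ResidueField P)
    (hmul : ∀ u u', UnitLam.IsNrUnit P u → UnitLam.IsNrUnit P u' → lam (u * u') = lam u + lam u')
    (hpow : ∀ w, UnitLam.IsNrUnit P w → lam (w ^ p) = 0)
    (hker : ∀ u, UnitLam.IsNrUnit P u → lam u = 0 → ∃ y, UnitLam.IsNrUnit P y ∧ y ^ p = u)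
    (hfrob : ∀ φ : GQ, P.IsFrobeniusAt φ p → ∀ u, UnitLam.IsNrUnit P u →
      UnitLam.IsNrUnit P (φ u) ∧ lam (φ u) = lam u ^ p)
    (η : ↥(P.decompositionSubgroup ℚ) →* kˣ)
    (hηI : ∀ σ : ↥(P.decompositionSubgroup ℚ), (σ : GQ) ∈ P.inertiaSubgroupIn ℚ → ∀ a : ℕ,
      (∀ μ : Qb, μ ^ p = 1 → (σ : GQ) μ = μ ^ a) → (η σ : k) = (a : k)) :
    ∃ (T : Type) (_ : Finite T) (f : (↥(P.decompositionSubgroup ℚ) → k) → T),
      Nat.card T ≤ Nat.card k ∧
      ∀ β β', Coc η β → UnitKum P p β → Coc η β' → UnitKum P p β' → f β = f β' →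
        ∀ σ : ↥(P.decompositionSubgroup ℚ), (σ : GQ) ∈ inertiaCyc P p → β σ = β' σ := by
  classical
  have hp : p.Prime := Fact.out
  obtain ⟨φ, hφ⟩ :=
    Fermat.Agent.Lib.FrobeniusExists.exists_isFrobeniusAt_of_liesOverPrime hp P hP
  have hφD := hφ.mem_decompositionSubgroup
  obtain ⟨a, hpa, ha⟩ := exists_pow_action p φ
  haveI : CharP k p := (CharP.charP_iff_prime_eq_zero hp).2 hpk
  have hak : (a : k) ≠ 0 := fun h => hpa ((CharP.cast_eq_zero_iff k p a).1 h)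
  set c0 : k := (a : k) * (((η ⟨φ, hφD⟩)⁻¹ : kˣ) : k) with hc0
  have hc0ne : c0 ≠ 0 := mul_ne_zero hak (Units.ne_zero _)
  haveI : CharP (IsLocalRing.ResidueField P) p := charP_residueField hP
  haveI : Finite (AddChar k Qb) := finite_addChar
  have hG : ∀ ψ : AddChar k Qb, ψ ^ p = 1 := fun ψ => by
    ext x
    rw [AddChar.pow_apply, addChar_pow_eq_one hpk, AddChar.one_apply]
  obtain ⟨hfin, hcard⟩ := Fermat.Agent.Lib.FrobFixed.finite_and_card_frobTwisted_le_mul (p := p)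
    hG (κ := IsLocalRing.ResidueField P) (scaleChar c0) (scaleChar_surjective hc0ne)
  have hη1 := eta_eq_one hηI
  -- the map
  let A : ∀ β : ↥(P.decompositionSubgroup ℚ) → k, UnitKum P p β → AddChar k Qb →
      IsLocalRing.ResidueField P := fun β h ψ0 => lam (nrmI P p ((h ψ0).choose ^ p))
  have hA : ∀ (β : ↥(P.decompositionSubgroup ℚ) → k) (h : UnitKum P p β) (ψ0 : AddChar k Qb)
      (z : Qb), Wit P p β ψ0 z → A β h ψ0 = lam (nrmI P p (z ^ p)) := fun β h ψ0 z hz =>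
    lam_eq_of_wit lam hpk hmul hpow (h ψ0).choose_spec hz
  have hAT : ∀ (β : ↥(P.decompositionSubgroup ℚ) → k) (_ : Coc η β) (h : UnitKum P p β),
      (∀ x y, A β h (x * y) = A β h x + A β h y) ∧
        ∀ x, A β h (scaleChar c0 x) = A β h x ^ p := by
    intro β hc h
    refine ⟨fun x y => ?_, fun x => ?_⟩
    · have hx : Wit P p β x (h x).choose := (h x).choose_spec
      have hy : Wit P p β y (h y).choose := (h y).choose_spec
      rw [hA β h (x * y) _ (hx.mul hy)]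
      exact lam_mul_of_wit lam hpk hmul hx hy
    · have hx : Wit P p β x (h x).choose := (h x).choose_spec
      have hw := hx.apply hpk hc hη1 ⟨φ, hφD⟩ a ha
      rw [hA β h (scaleChar c0 x) _ hw]
      exact lam_frob_of_wit lam hpk hfrob hφ hx
  let T : Type := {A : AddChar k Qb → IsLocalRing.ResidueField P //
    (∀ x y, A (x * y) = A x + A y) ∧ ∀ x, A (scaleChar c0 x) = A x ^ p}
  let f : (↥(P.decompositionSubgroup ℚ) → k) → T := fun β =>
    if h : Coc η β ∧ UnitKum P p β then ⟨A β h.2, hAT β h.1 h.2⟩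
    else ⟨fun _ => 0, fun _ _ => (add_zero 0).symm, fun _ => (zero_pow hp.ne_zero).symm⟩
  refine ⟨T, hfin, f, hcard.trans card_addChar_le, ?_⟩
  intro β β' hc hu hc' hu' hf σ hσ
  have hf1 : f β = ⟨A β hu, hAT β hc hu⟩ := dif_pos ⟨hc, hu⟩
  have hf2 : f β' = ⟨A β' hu', hAT β' hc' hu'⟩ := dif_pos ⟨hc', hu'⟩
  rw [hf1, hf2] at hf
  have hAeq : A β hu = A β' hu' := congrArg Subtype.val hf
  have hδ : (β - β') σ = 0 := by
    refine eq_zero_of_lam lam hpk hker (hc.sub hc') hηI (fun ψ0 => ?_) σ hσ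
    have hz : Wit P p β ψ0 (hu ψ0).choose := (hu ψ0).choose_spec
    have hz' : Wit P p β' ψ0 (hu' ψ0).choose := (hu' ψ0).choose_spec
    have hw := hz.sub hz'
    refine ⟨_, hw, ?_⟩
    have e1 := lam_mul_of_wit lam hpk hmul hw hz'
    have e2 : (hu ψ0).choose * (hu' ψ0).choose⁻¹ * (hu' ψ0).choose = (hu ψ0).choose := by
      have h0 := hz'.1.1
      field_simp
    rw [e2] at e1
    have e3 : lam (nrmI P p ((hu ψ0).choose ^ p)) = lam (nrmI P p ((hu' ψ0).choose ^ p)) :=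
      congrFun hAeq ψ0
    rw [e3] at e1
    exact (add_eq_right.1 e1.symm)
  rw [Pi.sub_apply] at hδ
  exact sub_eq_zero.1 hδ

/-- `exists_kummer_sep` with the unramified logarithm of `TW/Flat/UnitLam.lean`. -/
theorem exists_kummer_sep_of_toolkit (hUnr : Loc.Unr) (hTeich : Loc.Teich)
    (hClose : Loc.CloseRoot) {k : Type} [Field k] [Finite k] (p : ℕ) [Fact p.Prime]
    (hp2 : p ≠ 2) (hpk : (p : k) = 0) (P : ValuationSubring Qb) (hP : P.LiesOverPrime p)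
    (η : ↥(P.decompositionSubgroup ℚ) →* kˣ)
    (hηI : ∀ σ : ↥(P.decompositionSubgroup ℚ), (σ : GQ) ∈ P.inertiaSubgroupIn ℚ → ∀ a : ℕ,
      (∀ μ : Qb, μ ^ p = 1 → (σ : GQ) μ = μ ^ a) → (η σ : k) = (a : k)) :
    ∃ (T : Type) (_ : Finite T) (f : (↥(P.decompositionSubgroup ℚ) → k) → T),
      Nat.card T ≤ Nat.card k ∧
      ∀ β β', Coc η β → UnitKum P p β → Coc η β' → UnitKum P p β' → f β = f β' →
        ∀ σ : ↥(P.decompositionSubgroup ℚ), (σ : GQ) ∈ inertiaCyc P p → β σ = β' σ := by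
  obtain ⟨lam, hmul, hpow, hker, hfrob⟩ := UnitLam.exists_unitLam hUnr hTeich hClose p hp2 P hP
  exact exists_kummer_sep p hpk P hP lam hmul hpow hker hfrob η hηI

end Main

end

end Fermat.Agent.TW.Flat.OrdKum
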