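/-
TW-FLAT, row 322 (FLAT-ORD-COUNT), step (d): the Kummer separation `exists_kummer_sep`, with the
local toolkit (`Loc.Unr`, `Loc.Teich`, `Loc.CloseRoot`) instantiated — no hypotheses left.
-/
import Mathlib
import Fermat.Agent.TW.Flat.OrdKummer
import Fermat.Agent.TW.Flat.Local.Unr
import Fermat.Agent.TW.Flat.Local.CloseRoot

set_option autoImplicit false

namespace Fermat.Agent.TW.Flat.OrdKum

open Fermat.Agent.S53 Fermat.Agent.TW Fermat.Agent.TW.Flat

local notation "Qb" => AlgebraicClosure ℚ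

/-- **Step (d) of FLAT-ORD-COUNT, unconditional.**  Let `η : D →* kˣ` be the mod `p` cyclotomic
character on inertia.  The restrictions to `I' = inertiaCyc P p` of the `η`-cocycles `β : D → k`
all of whose additive characters on `I'` are Kummer characters of units of `P` are separated by
a map to a finite type with at most `#k` elements. -/
theorem exists_kummer_sep_main {k : Type} [Field k] [Finite k] (p : ℕ) [Fact p.Prime]
    (hp2 : p ≠ 2) (hpk : (p : k) = 0) (P : ValuationSubring Qb) (hP : P.LiesOverPrime p)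
    (η : ↥(P.decompositionSubgroup ℚ) →* kˣ)
    (hηI : ∀ σ : ↥(P.decompositionSubgroup ℚ), (σ : GQ) ∈ P.inertiaSubgroupIn ℚ → ∀ a : ℕ,
      (∀ μ : Qb, μ ^ p = 1 → (σ : GQ) μ = μ ^ a) → (η σ : k) = (a : k)) :
    ∃ (T : Type) (_ : Finite T) (f : (↥(P.decompositionSubgroup ℚ) → k) → T),
      Nat.card T ≤ Nat.card k ∧
      ∀ β β', Coc η β → UnitKum P p β → Coc η β' → UnitKum P p β' → f β = f β' →
        ∀ σ : ↥(P.decompositionSubgroup ℚ), (σ : GQ) ∈ inertiaCyc P p → β σ = β' σ :=
  exists_kummer_sep_of_toolkit Loc.Basic.unr Loc.Basic.teich Loc.Close.closeRoot p hp2 hpk P hP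
    η hηI

end Fermat.Agent.TW.Flat.OrdKum
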