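/-
TW-FLAT, row 322 (FLAT-ORD-COUNT), steps (c)+(d) in the abstract cocycle language of
`TW/Flat/OrdKummer.lean`:

* `Coc.eq_zero_of_vanish` : an `η`-cocycle on `D` vanishing on `I' = inertiaCyc P p` and at one
  `σ0 ∈ I` with `η σ0 ≠ 1` is zero.
* `exists_eta_ne_one` : such a `σ0` exists when `η` is the mod `p` cyclotomic character on `I`
  (`p` odd).
* `card_coc_unitKum_le` : the `η`-cocycles `β : D → k` all of whose additive characters on `I'`
  are Kummer characters of units of `P` are finitely many, at most `#k ^ 2`.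
-/
import Mathlib
import Fermat.Agent.TW.Flat.OrdKummerInst
import Fermat.Agent.TW.Local.InertiaCyclo

set_option autoImplicit false
set_option linter.style.haveILetI false

namespace Fermat.Agent.TW.Flat.OrdKum

open Fermat.Agent.S53 Fermat.Agent.TW Fermat.Agent.TW.Flat

local notation "Qb" => AlgebraicClosure ℚ

section

variable {k : Type} [Field k] {P : ValuationSubring Qb} {p : ℕ}

theorem Coc.conj_general {η : ↥(P.decompositionSubgroup ℚ) →* kˣ}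
    {β : ↥(P.decompositionSubgroup ℚ) → k} (h : Coc η β) (τ σ : ↥(P.decompositionSubgroup ℚ)) :
    β (τ⁻¹ * σ * τ) = (((η τ)⁻¹ : kˣ) : k) * (β σ + ((η σ : k) - 1) * β τ) := by
  rw [mul_assoc, h, h σ τ, h.map_inv, _root_.map_inv]
  ring

/-- The commutator of two automorphisms acts trivially on the `p`-th roots of unity. -/
theorem commutator_apply_root [Fact p.Prime] (σ τ : GQ) (ζ : Qb) (hζ : ζ ^ p = 1) :
    (σ⁻¹ * (τ⁻¹ * σ * τ)) ζ = ζ := by
  obtain ⟨a, -, ha⟩ := exists_pow_action p τ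
  obtain ⟨b, -, hb⟩ := exists_pow_action p σ
  show σ⁻¹ (τ⁻¹ (σ (τ ζ))) = ζ
  have h1 : (ζ ^ b) ^ p = 1 := by rw [← pow_mul, mul_comm, pow_mul, hζ, one_pow]
  have h2 : σ (τ ζ) = τ (σ ζ) := by
    rw [ha ζ hζ, hb ζ hζ, map_pow, map_pow, ha ζ hζ, hb ζ hζ, ← pow_mul, ← pow_mul, mul_comm]
  rw [h2, gq_inv_apply, gq_inv_apply]

/-- An `η`-cocycle vanishing on `I'` and at one element of inertia on which `η` is non-trivial
is zero. -/
theorem Coc.eq_zero_of_vanish [Fact p.Prime] {η : ↥(P.decompositionSubgroup ℚ) →* kˣ}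
    {δ : ↥(P.decompositionSubgroup ℚ) → k} (hcoc : Coc η δ)
    (hδ : ∀ σ : ↥(P.decompositionSubgroup ℚ), (σ : GQ) ∈ inertiaCyc P p → δ σ = 0)
    (σ0 : ↥(P.decompositionSubgroup ℚ)) (hσ0 : (σ0 : GQ) ∈ P.inertiaSubgroupIn ℚ)
    (hne : η σ0 ≠ 1) (h0 : δ σ0 = 0) (τ : ↥(P.decompositionSubgroup ℚ)) : δ τ = 0 := by
  -- `c := σ0⁻¹ (τ⁻¹ σ0 τ) ∈ I'`
  have hc : ((σ0⁻¹ * (τ⁻¹ * σ0 * τ) : ↥(P.decompositionSubgroup ℚ)) : GQ) ∈ inertiaCyc P p := by
    refine ⟨?_, fun ζ hζ => commutator_apply_root (σ0 : GQ) (τ : GQ) ζ hζ⟩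
    have h1 := conj_mem_inertia P (inv_mem τ.2) hσ0
    rw [inv_inv] at h1
    exact mul_mem (inv_mem hσ0) h1
  have e1 : τ⁻¹ * σ0 * τ = σ0 * (σ0⁻¹ * (τ⁻¹ * σ0 * τ)) := by group
  have h1 : δ (τ⁻¹ * σ0 * τ) = 0 := by
    rw [e1, hcoc, h0, hδ _ hc, mul_zero, add_zero]
  rw [hcoc.conj_general τ σ0, h0, zero_add] at h1
  have h2 : ((η σ0 : k) - 1) ≠ 0 := fun h => hne (Units.ext (by
    rw [Units.val_one]; exact sub_eq_zero.1 h))
  rcases mul_eq_zero.1 h1 with h | h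
  · exact absurd h (Units.ne_zero _)
  · rcases mul_eq_zero.1 h with h | h
    · exact absurd h h2
    · exact h

/-- If `η` is the mod `p` cyclotomic character on inertia (`p` odd), it is non-trivial there. -/
theorem exists_eta_ne_one [Fact p.Prime] (hp2 : p ≠ 2) (hpk : (p : k) = 0)
    (hP : P.LiesOverPrime p) {η : ↥(P.decompositionSubgroup ℚ) →* kˣ}
    (hηI : ∀ σ : ↥(P.decompositionSubgroup ℚ), (σ : GQ) ∈ P.inertiaSubgroupIn ℚ → ∀ a : ℕ,
      (∀ μ : Qb, μ ^ p = 1 → (σ : GQ) μ = μ ^ a) → (η σ : k) = (a : k)) :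
    ∃ σ0 : ↥(P.decompositionSubgroup ℚ), (σ0 : GQ) ∈ P.inertiaSubgroupIn ℚ ∧ η σ0 ≠ 1 := by
  have hp : p.Prime := Fact.out
  haveI : NeZero p := ⟨hp.ne_zero⟩
  haveI : CharP k p := (CharP.charP_iff_prime_eq_zero hp).2 hpk
  obtain ⟨ζ, hζ⟩ := HasEnoughRootsOfUnity.exists_primitiveRoot Qb p
  obtain ⟨σ, hσ, hne⟩ := Fermat.Agent.TW.KummerP.exists_mem_inertia_apply_ne p hp2 P hP hζ
  refine ⟨⟨σ, inertia_le P hσ⟩, hσ, fun h1 => hne ?_⟩
  obtain ⟨a, -, ha⟩ := exists_pow_action p σ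
  have h2 : (η ⟨σ, inertia_le P hσ⟩ : k) = (a : k) := hηI ⟨σ, inertia_le P hσ⟩ hσ a ha
  rw [h1, Units.val_one] at h2
  have h3 : ((1 : ℕ) : k) = (a : k) := by rw [Nat.cast_one]; exact h2
  have h4 : 1 ≡ a [MOD p] := (CharP.natCast_eq_natCast k p).1 h3
  rw [ha ζ hζ.pow_eq_one]
  have h5 : ζ ^ a = ζ ^ 1 := by
    rw [← pow_mod_orderOf ζ a, ← pow_mod_orderOf ζ 1, ← hζ.eq_orderOf]
    exact congrArg (ζ ^ ·) h4.symm
  rw [h5, pow_one]

end

/-- **Steps (c)+(d) of FLAT-ORD-COUNT.**  The `η`-cocycles on the decomposition group all of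
whose additive characters on `I'` are Kummer characters of units are at most `#k ^ 2`. -/
theorem card_coc_unitKum_le {k : Type} [Field k] [Finite k] (p : ℕ) [Fact p.Prime]
    (hp2 : p ≠ 2) (hpk : (p : k) = 0) (P : ValuationSubring Qb) (hP : P.LiesOverPrime p)
    (η : ↥(P.decompositionSubgroup ℚ) →* kˣ)
    (hηI : ∀ σ : ↥(P.decompositionSubgroup ℚ), (σ : GQ) ∈ P.inertiaSubgroupIn ℚ → ∀ a : ℕ,
      (∀ μ : Qb, μ ^ p = 1 → (σ : GQ) μ = μ ^ a) → (η σ : k) = (a : k)) :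
    Finite {β : ↥(P.decompositionSubgroup ℚ) → k // Coc η β ∧ UnitKum P p β} ∧
      Nat.card {β : ↥(P.decompositionSubgroup ℚ) → k // Coc η β ∧ UnitKum P p β}
        ≤ Nat.card k * Nat.card k := by
  obtain ⟨T, hT, f, hcard, hsep⟩ := exists_kummer_sep_main p hp2 hpk P hP η hηI
  obtain ⟨σ0, hσ0, hne⟩ := exists_eta_ne_one hp2 hpk hP hηI
  let g : {β : ↥(P.decompositionSubgroup ℚ) → k // Coc η β ∧ UnitKum P p β} → T × k :=
    fun β => (f β.1, β.1 σ0)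
  have hg : Function.Injective g := by
    intro β β' h
    have h1 : f β.1 = f β'.1 := congrArg Prod.fst h
    have h2 : β.1 σ0 = β'.1 σ0 := congrArg Prod.snd h
    have h3 := hsep β.1 β'.1 β.2.1 β.2.2 β'.2.1 β'.2.2 h1
    apply Subtype.ext
    funext τ
    have h4 := (β.2.1.sub β'.2.1).eq_zero_of_vanish
      (fun σ hσ => by rw [Pi.sub_apply, h3 σ hσ, sub_self]) σ0 hσ0 hne
      (by rw [Pi.sub_apply, h2, sub_self]) τ
    rw [Pi.sub_apply] at h4
    exact sub_eq_zero.1 h4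
  haveI : Finite (T × k) := inferInstance
  refine ⟨Finite.of_injective g hg, ?_⟩
  calc Nat.card {β : ↥(P.decompositionSubgroup ℚ) → k // Coc η β ∧ UnitKum P p β}
      ≤ Nat.card (T × k) := Nat.card_le_card_of_injective g hg
    _ = Nat.card T * Nat.card k := Nat.card_prod T k
    _ ≤ Nat.card k * Nat.card k := Nat.mul_le_mul_right _ hcard

end Fermat.Agent.TW.Flat.OrdKum
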